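import Mathlib

/-!
# P11 (S16), package B: the auxiliary prime

For every odd prime `p` there are `q ≡ 3 mod 4` and `r` with `q ∣ r² + p`
(`p ≡ 3 mod 4`: `q = p`, `r = 0`; `p ≡ 1 mod 4`: Dirichlet and quadratic reciprocity).
-/

set_option autoImplicit false

namespace Fermat.Agent.Eis

theorem exists_aux_qr (p : ℕ) [hp : Fact p.Prime] (hp2 : p ≠ 2) :
    ∃ q r : ℕ, q % 4 = 3 ∧ q ∣ r ^ 2 + p := by
  have hodd : p % 2 = 1 := hp.out.eq_two_or_odd.resolve_left hp2
  rcases (by omega : p % 4 = 3 ∨ p % 4 = 1) with h3 | h1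
  · exact ⟨p, 0, h3, by simp⟩
  · obtain ⟨n, hn⟩ : ∃ n : ZMod p, ¬ IsSquare n :=
      FiniteField.exists_nonsquare (by rw [ZMod.ringChar_zmod_n]; exact hp2)
    have hn0 : n ≠ 0 := by
      rintro rfl
      exact hn ⟨0, by simp⟩
    have hcop4 : Nat.Coprime 4 p := by
      rw [Nat.coprime_comm, Nat.Prime.coprime_iff_not_dvd hp.out]
      intro h
      have h2 : p ∣ 2 ^ 2 := by norm_num; exact h
      have h3 := Nat.Prime.dvd_of_dvd_pow hp.out h2
      exact hp2 ((Nat.prime_dvd_prime_iff_eq hp.out Nat.prime_two).mp h3)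
    obtain ⟨a₀, ha4, hap⟩ := Nat.chineseRemainder hcop4 3 n.val
    have hnd : ¬ p ∣ n.val := by
      intro h
      have := (ZMod.natCast_eq_zero_iff n.val p).mpr h
      rw [ZMod.natCast_zmod_val] at this
      exact hn0 this
    have hc : a₀.Coprime (4 * p) := by
      refine Nat.Coprime.mul_right ?_ ?_
      · rw [Nat.Coprime, ha4.gcd_eq]
        norm_num
      · rw [Nat.Coprime, hap.gcd_eq, Nat.gcd_comm]
        exact (Nat.Prime.coprime_iff_not_dvd hp.out).mpr hnd
    obtain ⟨q, -, hqp, hq⟩ := Nat.forall_exists_prime_gt_and_modEq 0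
      (Nat.mul_ne_zero (by norm_num) hp.out.ne_zero) hc
    haveI : Fact q.Prime := ⟨hqp⟩
    have hq4 : q % 4 = 3 := by
      have := (Nat.ModEq.of_mul_right p hq).trans ha4
      exact this
    have hqn : (q : ZMod p) = n := by
      have h := (Nat.ModEq.of_mul_left 4 hq).trans hap
      rw [← ZMod.natCast_eq_natCast_iff] at h
      rw [h, ZMod.natCast_zmod_val]
    have hq2 : q ≠ 2 := by
      rintro rfl
      omega
    have hl1 : legendreSym p q = -1 := by
      rw [legendreSym.eq_neg_one_iff', hqn]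
      exact hn
    have hl2 : legendreSym q p = -1 := by
      rw [legendreSym.quadratic_reciprocity_one_mod_four h1 hq2, hl1]
    have hl3 : legendreSym q (-1) = -1 := by
      rw [legendreSym.at_neg_one hq2, ZMod.χ₄_nat_three_mod_four hq4]
    have hl4 : legendreSym q (-(p : ℤ)) = 1 := by
      have : (-(p : ℤ)) = (-1) * (p : ℤ) := by ring
      rw [this, legendreSym.mul, hl3, hl2]
      norm_num
    have hpq : ((-(p : ℤ) : ℤ) : ZMod q) ≠ 0 := by
      intro h0
      rw [ZMod.intCast_zmod_eq_zero_iff_dvd, dvd_neg, Int.natCast_dvd_natCast] at h0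
      have hqp' : q = p := (Nat.prime_dvd_prime_iff_eq hqp hp.out).mp h0
      rw [hqp', ZMod.natCast_self] at hqn
      exact hn0 hqn.symm
    rw [legendreSym.eq_one_iff q hpq] at hl4
    obtain ⟨y, hy⟩ := hl4
    refine ⟨q, y.val, hq4, ?_⟩
    rw [← ZMod.natCast_eq_zero_iff]
    push_cast at hy ⊢
    rw [ZMod.natCast_zmod_val, pow_two, ← hy]
    ring

end Fermat.Agent.Eis
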