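import Mathlib

/-!
# P11 (S16), package B: one-variable theta series with characteristics

`thetaOne a m τ = ∑_{x ≡ m mod 2a} e(x² τ/(4a))`, its behaviour under `τ ↦ τ + 1` and `τ ↦ -1/τ`
(from Mathlib's `jacobiTheta₂_functional_equation`).
-/

set_option autoImplicit false

open Complex Real

namespace Fermat.Agent.Eis

section ThetaOne

variable (a : ℕ) [ha : NeZero a]

/-- the general term `e(x² τ/(4a))` -/
noncomputable def thetaTerm (τ : ℂ) (x : ℤ) : ℂ := cexp (2 * π * I * τ * x ^ 2 / (4 * a))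

/-- `∑_{x ≡ m mod 2a} e(x² τ/(4a))` -/
noncomputable def thetaOne (m : ZMod (2 * a)) (τ : ℂ) : ℂ :=
  ∑' x : ℤ, if ((x : ZMod (2 * a)) = m) then thetaTerm a τ x else 0

theorem thetaTerm_eq_jacobi (τ : ℂ) (x : ℤ) :
    thetaTerm a τ x = jacobiTheta₂_term x 0 (τ / (2 * a)) := by
  have ha0 : (a : ℂ) ≠ 0 := by exact_mod_cast ha.out
  rw [thetaTerm, jacobiTheta₂_term]
  congr 1
  field_simp
  ring

theorem summable_thetaTerm {τ : ℂ} (hτ : 0 < τ.im) : Summable (thetaTerm a τ) := by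
  have ha0 : (0 : ℝ) < a := by exact_mod_cast Nat.pos_of_ne_zero ha.out
  have h1 : 0 < (τ / (2 * a)).im := by
    have : (τ / (2 * a) : ℂ) = τ / ((2 * a : ℝ) : ℂ) := by push_cast; ring
    rw [this, Complex.div_ofReal_im]
    positivity
  have := (summable_jacobiTheta₂_term_iff 0 (τ / (2 * a))).mpr h1
  refine this.congr (fun x => ?_)
  rw [thetaTerm_eq_jacobi]

theorem summable_norm_thetaTerm {τ : ℂ} (hτ : 0 < τ.im) :
    Summable (fun x => ‖thetaTerm a τ x‖) :=
  (summable_thetaTerm a hτ).norm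

omit ha in
theorem summable_ite_of_summable {ι : Type*} {f : ι → ℂ} (hf : Summable f) (P : ι → Prop)
    [DecidablePred P] : Summable (fun x => if P x then f x else 0) := by
  refine Summable.of_norm_bounded hf.norm (fun x => ?_)
  split_ifs <;> simp

theorem hasSum_thetaOne (m : ZMod (2 * a)) {τ : ℂ} (hτ : 0 < τ.im) :
    HasSum (fun x : ℤ => if ((x : ZMod (2 * a)) = m) then thetaTerm a τ x else 0)
      (thetaOne a m τ) :=
  (summable_ite_of_summable (summable_thetaTerm a hτ) _).hasSum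

/-- `x² ≡ y² mod 4a` if `x ≡ y mod 2a` -/
theorem sq_sub_sq_of_zmod_eq {x y : ℤ} (h : (x : ZMod (2 * a)) = (y : ZMod (2 * a))) :
    ∃ k : ℤ, x ^ 2 - y ^ 2 = 4 * a * k := by
  rw [ZMod.intCast_eq_intCast_iff_dvd_sub] at h
  obtain ⟨c, hc⟩ := h
  push_cast at hc
  refine ⟨c * (-(a * c) - x), ?_⟩
  have hy : y = x + 2 * a * c := by linarith
  rw [hy]
  ring

/-- `τ ↦ τ + 1` -/
theorem thetaOne_add_one (m : ℤ) (τ : ℂ) :
    thetaOne a (m : ZMod (2 * a)) (τ + 1) =
      cexp (2 * π * I * m ^ 2 / (4 * a)) * thetaOne a (m : ZMod (2 * a)) τ := by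
  have ha0 : (a : ℂ) ≠ 0 := by exact_mod_cast ha.out
  rw [thetaOne, thetaOne, ← tsum_mul_left]
  refine tsum_congr (fun x => ?_)
  split_ifs with h
  · obtain ⟨k, hk⟩ := sq_sub_sq_of_zmod_eq a h
    have hk' : (x : ℂ) ^ 2 = m ^ 2 + 4 * a * k := by
      have := congrArg (Int.cast : ℤ → ℂ) hk
      push_cast at this
      linear_combination this
    rw [thetaTerm, thetaTerm, ← Complex.exp_add]
    have : 2 * π * I * (τ + 1) * (x : ℂ) ^ 2 / (4 * a) =
        2 * π * I * m ^ 2 / (4 * a) + 2 * π * I * τ * (x : ℂ) ^ 2 / (4 * a) + k * (2 * π * I) := by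
      rw [hk']
      field_simp
      ring
    rw [this, Complex.exp_add, Complex.exp_int_mul_two_pi_mul_I, mul_one]
  · rw [mul_zero]

/-- the full character sum is a value of `jacobiTheta₂` -/
theorem tsum_char_thetaTerm (m : ℤ) (τ : ℂ) :
    ∑' x : ℤ, cexp (2 * π * I * (m * x : ℤ) / (2 * a : ℕ)) * thetaTerm a τ x =
      jacobiTheta₂ (m / (2 * a)) (τ / (2 * a)) := by
  have ha0 : (a : ℂ) ≠ 0 := by exact_mod_cast ha.out
  rw [jacobiTheta₂]
  refine tsum_congr (fun x => ?_)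
  rw [thetaTerm, jacobiTheta₂_term, ← Complex.exp_add]
  congr 1
  push_cast
  field_simp
  ring

/-- decomposition of the full character sum into residue classes -/
theorem sum_char_thetaOne (m : ℤ) {τ : ℂ} (hτ : 0 < τ.im) :
    ∑ m' : ZMod (2 * a), ZMod.stdAddChar ((m : ZMod (2 * a)) * m') * thetaOne a m' τ =
      ∑' x : ℤ, cexp (2 * π * I * (m * x : ℤ) / (2 * a : ℕ)) * thetaTerm a τ x := by
  have hs := summable_thetaTerm a hτ
  have h1 : ∀ m' : ZMod (2 * a), ZMod.stdAddChar ((m : ZMod (2 * a)) * m') * thetaOne a m' τ =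
      ∑' x : ℤ, if ((x : ZMod (2 * a)) = m') then
        cexp (2 * π * I * (m * x : ℤ) / (2 * a : ℕ)) * thetaTerm a τ x else 0 := by
    intro m'
    rw [thetaOne, ← tsum_mul_left]
    refine tsum_congr (fun x => ?_)
    split_ifs with h
    · rw [← h, ← Int.cast_mul, ZMod.stdAddChar_coe]
    · rw [mul_zero]
  have hs' : Summable (fun x : ℤ => cexp (2 * π * I * (m * x : ℤ) / (2 * a : ℕ)) *
      thetaTerm a τ x) := by
    refine Summable.of_norm_bounded hs.norm (fun x => ?_)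
    rw [norm_mul]
    have : ‖cexp (2 * π * I * (m * x : ℤ) / (2 * a : ℕ))‖ = 1 := by
      have e : 2 * π * I * ((m * x : ℤ) : ℂ) / ((2 * a : ℕ) : ℂ) =
          ((2 * π * (m * x : ℤ) / (2 * a : ℕ) : ℝ) : ℂ) * I := by
        push_cast; ring
      rw [e, Complex.norm_exp_ofReal_mul_I]
    rw [this, one_mul]
  simp_rw [h1]
  rw [← Summable.tsum_finsetSum (fun i _ => summable_ite_of_summable hs' _)]
  refine tsum_congr (fun x => ?_)
  rw [Finset.sum_ite_eq Finset.univ (x : ZMod (2 * a))]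
  simp

/-- `x ↦ -x` -/
theorem thetaOne_neg (m : ZMod (2 * a)) (τ : ℂ) : thetaOne a (-m) τ = thetaOne a m τ := by
  rw [thetaOne, thetaOne, ← (Equiv.neg ℤ).tsum_eq]
  refine tsum_congr (fun x => ?_)
  have h1 : (((Equiv.neg ℤ) x : ℤ) : ZMod (2 * a)) = -m ↔ (x : ZMod (2 * a)) = m := by
    simp
  have h2 : thetaTerm a τ ((Equiv.neg ℤ) x) = thetaTerm a τ x := by
    simp [thetaTerm]
  rw [h2]
  by_cases h : (x : ZMod (2 * a)) = m
  · rw [if_pos h, if_pos (h1.mpr h)]
  · rw [if_neg h, if_neg (fun h' => h (h1.mp h'))]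

/-- reindexing a residue class -/
theorem tsum_ite_zmod_eq (m : ℤ) (f : ℤ → ℂ) :
    ∑' x : ℤ, (if ((x : ZMod (2 * a)) = (m : ZMod (2 * a))) then f x else 0) =
      ∑' n : ℤ, f (2 * a * n + m) := by
  have ha0 : (2 * a : ℤ) ≠ 0 := by
    have := ha.out
    positivity
  have hinj : Function.Injective (fun n : ℤ => 2 * (a : ℤ) * n + m) := by
    intro n n' h
    simpa [ha0] using h
  have hsupp : Function.support (fun x : ℤ =>
      if ((x : ZMod (2 * a)) = (m : ZMod (2 * a))) then f x else 0) ⊆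
      Set.range (fun n : ℤ => 2 * (a : ℤ) * n + m) := by
    intro x hx
    rw [Function.mem_support] at hx
    have h : (x : ZMod (2 * a)) = (m : ZMod (2 * a)) := by
      by_contra h
      exact hx (if_neg h)
    rw [ZMod.intCast_eq_intCast_iff_dvd_sub] at h
    obtain ⟨c, hc⟩ := h
    push_cast at hc
    exact ⟨-c, by simp only; linarith⟩
  rw [← hinj.tsum_eq hsupp]
  refine tsum_congr (fun n => ?_)
  have : (((2 * (a : ℤ) * n + m : ℤ)) : ZMod (2 * a)) = (m : ZMod (2 * a)) := by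
    push_cast
    have : ((2 : ZMod (2 * a)) * (a : ZMod (2 * a))) = 0 := by
      have := ZMod.natCast_self (2 * a)
      push_cast at this
      exact this
    rw [this, zero_mul, zero_add]
  rw [if_pos this]

/-- `thetaOne` in terms of `jacobiTheta₂` -/
theorem thetaOne_eq_jacobi (m : ℤ) (τ : ℂ) :
    thetaOne a (m : ZMod (2 * a)) τ =
      cexp (2 * π * I * τ * m ^ 2 / (4 * a)) * jacobiTheta₂ (-m * τ) (2 * a * τ) := by
  have ha0 : (a : ℂ) ≠ 0 := by exact_mod_cast ha.out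
  rw [← thetaOne_neg, thetaOne]
  have := tsum_ite_zmod_eq a (-m) (thetaTerm a τ)
  push_cast at this
  rw [this, jacobiTheta₂, ← tsum_mul_left]
  refine tsum_congr (fun n => ?_)
  rw [thetaTerm, jacobiTheta₂_term, ← Complex.exp_add]
  congr 1
  push_cast
  field_simp
  ring

/-- **`τ ↦ -1/τ`** -/
theorem thetaOne_inv (m : ℤ) {τ : ℂ} (hτ : 0 < τ.im) :
    thetaOne a (m : ZMod (2 * a)) (-1 / τ) = (-I * (τ / (2 * a))) ^ (1 / 2 : ℂ) *
      ∑ m' : ZMod (2 * a), ZMod.stdAddChar ((m : ZMod (2 * a)) * m') * thetaOne a m' τ := by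
  have ha0 : (a : ℂ) ≠ 0 := by exact_mod_cast ha.out
  have hτ0 : τ ≠ 0 := by
    rintro rfl
    simp at hτ
  rw [sum_char_thetaOne a m hτ, tsum_char_thetaTerm, jacobiTheta₂_functional_equation,
    thetaOne_eq_jacobi]
  have hne : (-I * (τ / (2 * a))) ^ (1 / 2 : ℂ) ≠ 0 := by
    rw [Ne, Complex.cpow_eq_zero_iff]
    rintro ⟨h, -⟩
    have : τ / (2 * a) = 0 := by
      rcases mul_eq_zero.mp h with h | h
      · exact absurd h (neg_ne_zero.mpr I_ne_zero)
      · exact h
    rcases div_eq_zero_iff.mp this with h | h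
    · exact hτ0 h
    · exact absurd h (mul_ne_zero two_ne_zero ha0)
  have e1 : (m : ℂ) / (2 * a) / (τ / (2 * a)) = -m * (-1 / τ) := by
    field_simp
  have e2 : -1 / (τ / (2 * a)) = 2 * a * (-1 / τ) := by
    field_simp
  rw [e1, e2, ← mul_assoc, ← mul_assoc, mul_one_div_cancel hne, one_mul]
  congr 2
  field_simp
  ring

/-- holomorphy on the upper half plane -/
theorem differentiableAt_thetaOne (m : ZMod (2 * a)) {τ : ℂ} (hτ : 0 < τ.im) :
    DifferentiableAt ℂ (thetaOne a m) τ := by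
  obtain ⟨m, rfl⟩ := ZMod.intCast_surjective m
  have ha0 : (0 : ℝ) < a := by exact_mod_cast Nat.pos_of_ne_zero ha.out
  have h2 : 0 < (2 * a * τ).im := by
    have : (2 * a * τ : ℂ) = ((2 * a : ℝ) : ℂ) * τ := by push_cast; ring
    rw [this, Complex.im_ofReal_mul]
    positivity
  have h3 : DifferentiableAt ℂ (fun t : ℂ => jacobiTheta₂ (-m * t) (2 * a * t)) τ := by
    have hg : DifferentiableAt ℂ (fun t : ℂ => ((-m * t, 2 * a * t) : ℂ × ℂ)) τ := by
      fun_prop
    exact (hasFDerivAt_jacobiTheta₂ (-m * τ) h2).differentiableAt.comp τ hg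
  have h4 : DifferentiableAt ℂ (fun t : ℂ => cexp (2 * π * I * t * m ^ 2 / (4 * a))) τ := by
    fun_prop
  have := h4.mul h3
  refine this.congr_of_eventuallyEq ?_
  filter_upwards with t
  exact thetaOne_eq_jacobi a m t

omit ha in
/-- splitting off a positive real factor under the square root -/
theorem cpow_half_div {w : ℂ} (hw : w ≠ 0) {x : ℝ} (hx : 0 < x) :
    (w / x) ^ (1 / 2 : ℂ) = w ^ (1 / 2 : ℂ) / (Real.sqrt x : ℂ) := by
  have hx0 : (x : ℂ) ≠ 0 := by exact_mod_cast hx.ne'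
  have h1 : w / x = ((x⁻¹ : ℝ) : ℂ) * w := by push_cast; field_simp
  rw [Complex.cpow_def_of_ne_zero (div_ne_zero hw hx0), Complex.cpow_def_of_ne_zero hw, h1,
    Complex.log_ofReal_mul (inv_pos.mpr hx) hw, add_mul, Complex.exp_add, mul_comm, div_eq_mul_inv]
  congr 1
  rw [Real.sqrt_eq_rpow, Real.rpow_def_of_pos hx, Real.log_inv]
  push_cast
  rw [← Complex.exp_neg]
  congr 1
  ring

end ThetaOne

end Fermat.Agent.Eis
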