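import Mathlib
import Fermat.Agent.Lib.Eis.Theta.ThetaOne

/-!
# P11 (S16), package B: theta systems

A `ThetaSys M 𝔇 X` is a family of theta series `Θ_d(τ) = ∑_{x ∈ X, cls x = d} e(nrm(x) τ/M)`,
indexed by a finite abelian group `𝔇` carrying a finite quadratic form `N : 𝔇 → ℤ/M`, which
transforms under `τ ↦ -1/τ` through the finite Fourier transform (Weil representation).
Products of theta systems are theta systems; the one-variable theta series form one.
-/

set_option autoImplicit false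

open Complex Real UpperHalfPlane
open scoped MatrixGroups Manifold

namespace Fermat.Agent.Eis

/-- the term `e(n τ/M)` -/
noncomputable def tsTerm (M : ℕ) (n : ℕ) (τ : ℂ) : ℂ := cexp (2 * π * Complex.I * τ * n / M)

theorem tsTerm_add (M : ℕ) (n n' : ℕ) (τ : ℂ) :
    tsTerm M (n + n') τ = tsTerm M n τ * tsTerm M n' τ := by
  rw [tsTerm, tsTerm, tsTerm, ← Complex.exp_add]
  congr 1
  push_cast
  ring

theorem norm_tsTerm (M : ℕ) (n : ℕ) (τ : ℂ) :
    ‖tsTerm M n τ‖ = rexp (-(2 * π * n * τ.im / M)) := by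
  rw [tsTerm, Complex.norm_exp]
  congr 1
  have : (2 * π * Complex.I * τ * n / M : ℂ) = ((2 * π * n / M : ℝ) : ℂ) * (Complex.I * τ) := by
    push_cast; ring
  rw [this, Complex.re_ofReal_mul, Complex.I_mul_re]
  ring

theorem tsTerm_add_one (M : ℕ) [NeZero M] (n : ℕ) (τ : ℂ) :
    tsTerm M n (τ + 1) = ZMod.stdAddChar ((n : ℕ) : ZMod M) * tsTerm M n τ := by
  have : ((n : ℕ) : ZMod M) = ((n : ℤ) : ZMod M) := by push_cast; rfl
  rw [this, ZMod.stdAddChar_coe, tsTerm, tsTerm, ← Complex.exp_add]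
  congr 1
  push_cast
  ring

/-- the combinatorial data of a theta system -/
structure ThetaData (M : ℕ) (𝔇 : Type) (X : Type) [AddCommGroup 𝔇] [AddCommGroup X] where
  /-- the class of a lattice vector in the discriminant group -/
  cls : X →+ 𝔇
  /-- `M` times the norm of a lattice vector -/
  nrm : X → ℕ
  /-- the finite quadratic form -/
  N : 𝔇 → ZMod M
  /-- the associated bilinear form -/
  B : 𝔇 → 𝔇 → ZMod M
  nrm_cls : ∀ x, (nrm x : ZMod M) = N (cls x)
  nrm_neg : ∀ x, nrm (-x) = nrm x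
  nrm_eq_zero : ∀ x, nrm x = 0 ↔ x = 0
  neg_eq_self : ∀ x : X, -x = x → x = 0
  N_add : ∀ x y, N (x + y) = N x + N y + B x y
  N_zsmul : ∀ (n : ℤ) x, N (n • x) = (n : ZMod M) ^ 2 * N x
  B_add_right : ∀ x y z, B x (y + z) = B x y + B x z
  B_symm : ∀ x y, B x y = B y x
  summable : ∀ τ : ℍ, Summable (fun x => tsTerm M (nrm x) τ)

namespace ThetaData

variable {M : ℕ} {𝔇 X : Type} [AddCommGroup 𝔇] [AddCommGroup X] [DecidableEq 𝔇]

/-- the theta series of a class -/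
noncomputable def theta (D : ThetaData M 𝔇 X) (d : 𝔇) (τ : ℍ) : ℂ :=
  ∑' x : X, if D.cls x = d then tsTerm M (D.nrm x) τ else 0

theorem hasSum_theta (D : ThetaData M 𝔇 X) (d : 𝔇) (τ : ℍ) :
    HasSum (fun x : X => if D.cls x = d then tsTerm M (D.nrm x) τ else 0) (D.theta d τ) :=
  (summable_ite_of_summable (D.summable τ) _).hasSum

/-- `τ ↦ τ + 1` -/
theorem theta_T [NeZero M] (D : ThetaData M 𝔇 X) (d : 𝔇) (τ : ℍ) :
    D.theta d (ModularGroup.T • τ) = ZMod.stdAddChar (D.N d) * D.theta d τ := by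
  rw [theta, theta, ← tsum_mul_left]
  refine tsum_congr (fun x => ?_)
  have hT : ((ModularGroup.T • τ : ℍ) : ℂ) = (τ : ℂ) + 1 := by
    rw [UpperHalfPlane.modular_T_smul, UpperHalfPlane.coe_vadd]
    push_cast
    ring
  split_ifs with h
  · rw [hT, tsTerm_add_one, D.nrm_cls, h]
  · rw [mul_zero]

/-- boundedness at `i∞` -/
theorem isBoundedAtImInfty_theta (D : ThetaData M 𝔇 X) (d : 𝔇) :
    IsBoundedAtImInfty (D.theta d) := by
  rw [UpperHalfPlane.isBoundedAtImInfty_iff]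
  refine ⟨∑' x : X, ‖tsTerm M (D.nrm x) (UpperHalfPlane.I : ℍ)‖, 1, fun τ hτ => ?_⟩
  have hs1 := (D.summable UpperHalfPlane.I).norm
  have hs2 : Summable (fun x : X => ‖if D.cls x = d then tsTerm M (D.nrm x) τ else 0‖) :=
    (summable_ite_of_summable (D.summable τ) _).norm
  rw [theta]
  refine (norm_tsum_le_tsum_norm hs2).trans (hs2.tsum_le_tsum (fun x => ?_) hs1)
  have hle : ‖tsTerm M (D.nrm x) τ‖ ≤ ‖tsTerm M (D.nrm x) (UpperHalfPlane.I : ℍ)‖ := by
    rw [norm_tsTerm, norm_tsTerm, Real.exp_le_exp, neg_le_neg_iff]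
    have h1 : ((UpperHalfPlane.I : ℍ) : ℂ).im = 1 := by simp
    rw [h1]
    have h2 : (1 : ℝ) ≤ (τ : ℂ).im := hτ
    gcongr
  split_ifs
  · exact hle
  · rw [norm_zero]; exact norm_nonneg _

end ThetaData

/-- a theta system: theta data together with the inversion formula -/
structure ThetaSys (M : ℕ) [NeZero M] (𝔇 : Type) (X : Type) [AddCommGroup 𝔇] [AddCommGroup X]
    [Fintype 𝔇] [DecidableEq 𝔇] extends ThetaData M 𝔇 X where
  /-- the automorphy factor -/
  J : ℍ → ℂ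
  /-- the constant in the inversion formula -/
  κ : ℂ
  trans_S : ∀ d (τ : ℍ), toThetaData.theta d (ModularGroup.S • τ) =
    J τ * κ * ∑ d', ZMod.stdAddChar (B d d') * toThetaData.theta d' τ
  holo : ∀ d, MDifferentiable 𝓘(ℂ) 𝓘(ℂ) (toThetaData.theta d)

/-! ### Products -/

section Prod

variable {M : ℕ} {𝔇₁ X₁ 𝔇₂ X₂ : Type} [AddCommGroup 𝔇₁] [AddCommGroup X₁] [AddCommGroup 𝔇₂]
  [AddCommGroup X₂]

/-- the product of two theta data (orthogonal sum of lattices) -/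
def ThetaData.prod (D₁ : ThetaData M 𝔇₁ X₁) (D₂ : ThetaData M 𝔇₂ X₂) :
    ThetaData M (𝔇₁ × 𝔇₂) (X₁ × X₂) where
  cls := D₁.cls.prodMap D₂.cls
  nrm x := D₁.nrm x.1 + D₂.nrm x.2
  N d := D₁.N d.1 + D₂.N d.2
  B d d' := D₁.B d.1 d'.1 + D₂.B d.2 d'.2
  nrm_cls x := by
    push_cast
    rw [D₁.nrm_cls, D₂.nrm_cls]
    rfl
  nrm_neg x := by simp [D₁.nrm_neg, D₂.nrm_neg]
  nrm_eq_zero x := by
    rw [Nat.add_eq_zero_iff, D₁.nrm_eq_zero, D₂.nrm_eq_zero, Prod.ext_iff]
    rfl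
  neg_eq_self x h :=
    Prod.ext (D₁.neg_eq_self _ (congrArg Prod.fst h)) (D₂.neg_eq_self _ (congrArg Prod.snd h))
  N_add x y := by
    simp only [Prod.fst_add, Prod.snd_add, D₁.N_add, D₂.N_add]
    ring
  N_zsmul n x := by
    simp only [Prod.smul_fst, Prod.smul_snd, D₁.N_zsmul, D₂.N_zsmul]
    ring
  B_add_right x y z := by
    simp only [Prod.fst_add, Prod.snd_add, D₁.B_add_right, D₂.B_add_right]
    ring
  B_symm x y := by rw [D₁.B_symm, D₂.B_symm]
  summable τ := by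
    have := summable_mul_of_summable_norm (D₁.summable τ).norm (D₂.summable τ).norm
    refine this.congr (fun x => ?_)
    rw [tsTerm_add]

variable [DecidableEq 𝔇₁] [DecidableEq 𝔇₂]

theorem ThetaData.theta_prod (D₁ : ThetaData M 𝔇₁ X₁) (D₂ : ThetaData M 𝔇₂ X₂) (d : 𝔇₁ × 𝔇₂)
    (τ : ℍ) : (D₁.prod D₂).theta d τ = D₁.theta d.1 τ * D₂.theta d.2 τ := by
  rw [ThetaData.theta, ThetaData.theta, ThetaData.theta,
    tsum_mul_tsum_of_summable_norm (summable_ite_of_summable (D₁.summable τ) _).norm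
      (summable_ite_of_summable (D₂.summable τ) _).norm]
  refine tsum_congr (fun x => ?_)
  have hcls : (D₁.prod D₂).cls x = d ↔ D₁.cls x.1 = d.1 ∧ D₂.cls x.2 = d.2 := by
    rw [Prod.ext_iff]
    rfl
  have hn : (D₁.prod D₂).nrm x = D₁.nrm x.1 + D₂.nrm x.2 := rfl
  by_cases h1 : D₁.cls x.1 = d.1
  · by_cases h2 : D₂.cls x.2 = d.2
    · rw [if_pos (hcls.mpr ⟨h1, h2⟩), if_pos h1, if_pos h2, hn, tsTerm_add]
    · rw [if_neg (fun h => h2 (hcls.mp h).2), if_neg h2, mul_zero]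
  · rw [if_neg (fun h => h1 (hcls.mp h).1), if_neg h1, zero_mul]

variable [NeZero M] [Fintype 𝔇₁] [Fintype 𝔇₂]

/-- the product of two theta systems -/
noncomputable def ThetaSys.prod (S₁ : ThetaSys M 𝔇₁ X₁) (S₂ : ThetaSys M 𝔇₂ X₂) :
    ThetaSys M (𝔇₁ × 𝔇₂) (X₁ × X₂) where
  toThetaData := S₁.toThetaData.prod S₂.toThetaData
  J τ := S₁.J τ * S₂.J τ
  κ := S₁.κ * S₂.κ
  trans_S d τ := by
    rw [ThetaData.theta_prod, S₁.trans_S, S₂.trans_S, Fintype.sum_prod_type]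
    simp only [ThetaData.theta_prod]
    have : ∀ x : 𝔇₁, ∀ y : 𝔇₂, ZMod.stdAddChar ((S₁.toThetaData.prod S₂.toThetaData).B d (x, y)) =
        ZMod.stdAddChar (S₁.B d.1 x) * ZMod.stdAddChar (S₂.B d.2 y) := by
      intro x y
      rw [← AddChar.map_add_eq_mul]
      rfl
    simp only [this]
    rw [mul_mul_mul_comm, mul_mul_mul_comm (S₁.J τ), Finset.sum_mul_sum]
    congr 1
    refine Finset.sum_congr rfl (fun x _ => Finset.sum_congr rfl (fun y _ => ?_))
    ring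
  holo d := by
    have h1 := S₁.holo d.1
    have h2 := S₂.holo d.2
    have : (S₁.toThetaData.prod S₂.toThetaData).theta d =
        fun τ => S₁.toThetaData.theta d.1 τ * S₂.toThetaData.theta d.2 τ := by
      funext τ
      exact ThetaData.theta_prod _ _ d τ
    rw [this]
    exact h1.mul h2

end Prod

end Fermat.Agent.Eis
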