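import Mathlib
import Fermat.Agent.Lib.Eis.Theta.ThetaSys

/-!
# P11 (S16), package B: the Weil representation of a weight two theta system

For a theta system with automorphy factor `J(τ) = -τ²` and an isotropic subgroup `H` of the
discriminant group, the theta series `θ_k = ∑_{c ∈ H} Θ_{k + c}` (`k ∈ H^⊥`) satisfy
`θ_k | T = e(N k) θ_k`, `θ_k | S = -κ ∑_{d ∈ H^⊥} e(B(k, d)) θ_d`.
-/

set_option autoImplicit false

open Complex Real UpperHalfPlane ModularGroup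
open scoped MatrixGroups Manifold ModularForm

namespace Fermat.Agent.Eis

namespace ThetaSys

variable {M : ℕ} [NeZero M] {𝔇 X : Type} [AddCommGroup 𝔇] [AddCommGroup X] [Fintype 𝔇]
  [DecidableEq 𝔇] (Θ : ThetaSys M 𝔇 X)

local notation "ψ" => (ZMod.stdAddChar : AddChar (ZMod M) ℂ)

theorem slash_T (d : 𝔇) :
    Θ.theta d ∣[(2 : ℤ)] T = ψ (Θ.N d) • Θ.theta d := by
  ext τ
  rw [ModularForm.SL_slash_apply, Θ.theta_T]
  have : denom (T : SL(2, ℤ)) τ = 1 := by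
    simp [denom, ModularGroup.T]
  rw [this]
  simp

theorem slash_S (hJ : ∀ τ : ℍ, Θ.J τ = -(τ : ℂ) ^ 2) (d : 𝔇) :
    Θ.theta d ∣[(2 : ℤ)] S = (-Θ.κ) • ∑ d', ψ (Θ.B d d') • Θ.theta d' := by
  ext τ
  rw [ModularForm.SL_slash_apply, Θ.trans_S, hJ, ModularGroup.denom_S]
  have hτ : (τ : ℂ) ≠ 0 := τ.ne_zero
  simp only [Pi.smul_apply, Finset.sum_apply, smul_eq_mul]
  rw [zpow_neg, zpow_ofNat]
  field_simp

/-! ### Algebra of the finite quadratic form -/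

theorem B_zero_right (x : 𝔇) : Θ.B x 0 = 0 := by
  have := Θ.B_add_right x 0 0
  rw [add_zero] at this
  exact left_eq_add.mp this

theorem B_neg_right (x y : 𝔇) : Θ.B x (-y) = -Θ.B x y := by
  have := Θ.B_add_right x y (-y)
  rw [add_neg_cancel, B_zero_right] at this
  exact eq_neg_of_add_eq_zero_right this.symm

theorem B_add_left (x y z : 𝔇) : Θ.B (x + y) z = Θ.B x z + Θ.B y z := by
  rw [Θ.B_symm, Θ.B_add_right, Θ.B_symm z x, Θ.B_symm z y]

theorem B_zero_left (x : 𝔇) : Θ.B 0 x = 0 := by rw [Θ.B_symm, B_zero_right]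

theorem B_neg_left (x y : 𝔇) : Θ.B (-x) y = -Θ.B x y := by
  rw [Θ.B_symm, B_neg_right, Θ.B_symm]

/-- `B x` as an additive homomorphism -/
def Bhom (x : 𝔇) : 𝔇 →+ ZMod M where
  toFun := Θ.B x
  map_zero' := Θ.B_zero_right x
  map_add' := Θ.B_add_right x

theorem B_zsmul_right (n : ℤ) (x y : 𝔇) : Θ.B x (n • y) = (n : ZMod M) * Θ.B x y := by
  have := map_zsmul (Θ.Bhom x) n y
  rw [zsmul_eq_mul] at this
  exact this

theorem N_zero : Θ.N 0 = 0 := by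
  have := Θ.N_zsmul 0 0
  simpa using this

theorem N_neg (x : 𝔇) : Θ.N (-x) = Θ.N x := by
  have := Θ.N_zsmul (-1) x
  simpa using this

/-! ### Isotropic subgroups -/

section Isotropic

open scoped Classical

variable (H : AddSubgroup 𝔇)

/-- the orthogonal complement of a subgroup -/
def orth : AddSubgroup 𝔇 where
  carrier := {d | ∀ h ∈ H, Θ.B d h = 0}
  zero_mem' := fun h _ => Θ.B_zero_left h
  add_mem' := fun {a b} ha hb h hh => by
    rw [B_add_left, ha h hh, hb h hh, add_zero]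
  neg_mem' := fun {a} ha h hh => by
    rw [B_neg_left, ha h hh, neg_zero]

theorem mem_orth {d : 𝔇} : d ∈ Θ.orth H ↔ ∀ h ∈ H, Θ.B d h = 0 := Iff.rfl

/-- an isotropic subgroup is contained in its orthogonal complement -/
theorem le_orth (hH : ∀ h ∈ H, Θ.N h = 0) : H ≤ Θ.orth H := by
  intro x hx h hh
  have := Θ.N_add x h
  rw [hH _ (H.add_mem hx hh), hH x hx, hH h hh, zero_add, zero_add] at this
  exact this.symm

/-- the theta series of a coset of `H` -/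
noncomputable def thetaH (k : 𝔇) : ℍ → ℂ := ∑ c : H, Θ.theta (k + c)

theorem thetaH_add_mem (k : 𝔇) {h : 𝔇} (hh : h ∈ H) : Θ.thetaH H (k + h) = Θ.thetaH H k := by
  rw [thetaH, thetaH]
  refine Fintype.sum_equiv (Equiv.addLeft (⟨h, hh⟩ : H)) _ _ (fun c => ?_)
  rw [Equiv.coe_addLeft, AddSubgroup.coe_add, add_assoc]

theorem thetaH_slash_T (hH : ∀ h ∈ H, Θ.N h = 0) {k : 𝔇} (hk : k ∈ Θ.orth H) :
    Θ.thetaH H k ∣[(2 : ℤ)] T = ψ (Θ.N k) • Θ.thetaH H k := by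
  rw [thetaH, SlashAction.sum_slash, Finset.smul_sum]
  refine Finset.sum_congr rfl (fun c _ => ?_)
  rw [slash_T, Θ.N_add, hH c c.2, hk c c.2, add_zero, add_zero]

/-- orthogonality of characters on `H` -/
theorem sum_char_eq (d : 𝔇) :
    ∑ c : H, ψ (Θ.B (c : 𝔇) d) = if d ∈ Θ.orth H then (Fintype.card H : ℂ) else 0 := by
  split_ifs with hd
  · have : ∀ c : H, ψ (Θ.B (c : 𝔇) d) = 1 := fun c => by
      rw [Θ.B_symm, hd c c.2, AddChar.map_zero_eq_one]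
    simp [this]
  · rw [mem_orth] at hd
    push_neg at hd
    obtain ⟨h₀, hh₀, hne⟩ := hd
    have hne' : ψ (Θ.B h₀ d) ≠ 1 := by
      intro h1
      rw [← AddChar.map_zero_eq_one (ZMod.stdAddChar (N := M))] at h1
      exact hne ((Θ.B_symm d h₀).trans (ZMod.injective_stdAddChar h1))
    have hsum : ∑ c : H, ψ (Θ.B (c : 𝔇) d) = ψ (Θ.B h₀ d) * ∑ c : H, ψ (Θ.B (c : 𝔇) d) := by
      rw [Finset.mul_sum]
      refine (Fintype.sum_equiv (Equiv.addLeft (⟨h₀, hh₀⟩ : H)) _ _ (fun c => ?_)).symm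
      rw [Equiv.coe_addLeft, AddSubgroup.coe_add, B_add_left, AddChar.map_add_eq_mul]
    have : (1 - ψ (Θ.B h₀ d)) * ∑ c : H, ψ (Θ.B (c : 𝔇) d) = 0 := by
      rw [sub_mul, one_mul, ← hsum, sub_self]
    rcases mul_eq_zero.mp this with h | h
    · exact absurd (sub_eq_zero.mp h).symm hne'
    · exact h

theorem thetaH_slash_S (hJ : ∀ τ : ℍ, Θ.J τ = -(τ : ℂ) ^ 2) (hH : ∀ h ∈ H, Θ.N h = 0) {k : 𝔇}
    (hk : k ∈ Θ.orth H) :
    Θ.thetaH H k ∣[(2 : ℤ)] S =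
      (-Θ.κ) • ∑ d : Θ.orth H, ψ (Θ.B k (d : 𝔇)) • Θ.thetaH H (d : 𝔇) := by
  have hL : Θ.thetaH H k ∣[(2 : ℤ)] S = (-Θ.κ) • ((Fintype.card H : ℂ) •
      ∑ d : Θ.orth H, ψ (Θ.B k (d : 𝔇)) • Θ.theta (d : 𝔇)) := by
    rw [thetaH, SlashAction.sum_slash]
    simp only [Θ.slash_S hJ]
    rw [← Finset.smul_sum, Finset.sum_comm]
    congr 1
    have h1 : ∀ d : 𝔇, ∑ c : H, ψ (Θ.B (k + (c : 𝔇)) d) • Θ.theta d =
        (if d ∈ Θ.orth H then ((Fintype.card H : ℂ) * ψ (Θ.B k d)) • Θ.theta d else 0) := by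
      intro d
      rw [← Finset.sum_smul]
      have : ∀ c : H, ψ (Θ.B (k + (c : 𝔇)) d) = ψ (Θ.B k d) * ψ (Θ.B (c : 𝔇) d) := fun c => by
        rw [B_add_left, AddChar.map_add_eq_mul]
      simp only [this]
      rw [← Finset.mul_sum, sum_char_eq]
      split_ifs
      · rw [mul_comm]
      · rw [mul_zero, zero_smul]
    simp only [h1]
    rw [← Finset.sum_filter, Finset.smul_sum]
    rw [Finset.sum_subtype (Finset.univ.filter (· ∈ Θ.orth H)) (p := (· ∈ Θ.orth H))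
      (fun x => by simp)]
    refine Finset.sum_congr rfl (fun d _ => ?_)
    rw [mul_smul]
  have hR : (-Θ.κ) • ∑ d : Θ.orth H, ψ (Θ.B k (d : 𝔇)) • Θ.thetaH H (d : 𝔇) =
      (-Θ.κ) • ((Fintype.card H : ℂ) •
        ∑ d : Θ.orth H, ψ (Θ.B k (d : 𝔇)) • Θ.theta (d : 𝔇)) := by
    congr 1
    simp only [thetaH, Finset.smul_sum]
    rw [Finset.sum_comm]
    have h2 : ∀ c : H, ∑ d : Θ.orth H, ψ (Θ.B k (d : 𝔇)) • Θ.theta ((d : 𝔇) + (c : 𝔇)) =
        ∑ d : Θ.orth H, ψ (Θ.B k (d : 𝔇)) • Θ.theta (d : 𝔇) := by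
      intro c
      have hc : (c : 𝔇) ∈ Θ.orth H := Θ.le_orth H hH c.2
      refine Fintype.sum_equiv (Equiv.addRight (⟨c, hc⟩ : Θ.orth H)) _ _ (fun d => ?_)
      rw [Equiv.coe_addRight, AddSubgroup.coe_add, Θ.B_add_right, hk c c.2, add_zero]
    simp only [h2]
    rw [Finset.sum_const, Finset.card_univ, ← Nat.cast_smul_eq_nsmul ℂ, Finset.smul_sum]
  rw [hL, hR]

end Isotropic

end ThetaSys

end Fermat.Agent.Eis
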