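import Mathlib
import Fermat.Agent.Lib.Eis.Theta.Weil

/-!
# P11 (S16), package B: the `q`-expansion of the theta series of an isotropic subgroup

`θ_0(τ) = ∑_n r(n) q^n`, where `r(n)` is the number of lattice vectors `x` (i.e. `cls x ∈ H`) with
`nrm x = M n`; `r(0) = 1` and `r(n)` is even for `n ≥ 1`.
-/

set_option autoImplicit false

open Complex Real UpperHalfPlane
open scoped MatrixGroups Manifold

namespace Fermat.Agent.Eis

namespace ThetaSys

variable {M : ℕ} [hM : NeZero M] {𝔇 X : Type} [AddCommGroup 𝔇] [AddCommGroup X] [Fintype 𝔇]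
  [DecidableEq 𝔇] (Θ : ThetaSys M 𝔇 X) (H : AddSubgroup 𝔇)

/-- the lattice attached to a subgroup of the discriminant group -/
def Latt : Type := {x : X // Θ.cls x ∈ H}

/-- the norm of a lattice vector, divided by `M` -/
def lattNu (x : Θ.Latt H) : ℕ := Θ.nrm x.1 / M

/-- the representation numbers -/
noncomputable def repCount (n : ℕ) : ℕ := Nat.card (Θ.lattNu H ⁻¹' {n})

section

open scoped Classical

theorem thetaH_zero_apply (τ : ℍ) :
    Θ.thetaH H 0 τ = ∑' x : X, if Θ.cls x ∈ H then tsTerm M (Θ.nrm x) τ else 0 := by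
  rw [thetaH, Finset.sum_apply]
  simp only [zero_add, ThetaData.theta]
  rw [← Summable.tsum_finsetSum (fun c _ => summable_ite_of_summable (Θ.summable τ) _)]
  refine tsum_congr (fun x => ?_)
  by_cases h : Θ.cls x ∈ H
  · rw [if_pos h]
    have : ∀ c : H, (Θ.cls x = (c : 𝔇)) ↔ (⟨Θ.cls x, h⟩ : H) = c := fun c => by
      rw [Subtype.ext_iff]
    simp only [this]
    rw [Finset.sum_ite_eq Finset.univ (⟨Θ.cls x, h⟩ : H)]
    simp
  · rw [if_neg h]
    refine Finset.sum_eq_zero (fun c _ => ?_)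
    rw [if_neg]
    intro h'
    exact h (h' ▸ c.2)

end

variable (hH : ∀ h ∈ H, Θ.N h = 0)

include hH in
theorem dvd_nrm_of_mem (x : Θ.Latt H) : M ∣ Θ.nrm x.1 := by
  rw [← ZMod.natCast_eq_zero_iff, Θ.nrm_cls, hH _ x.2]

include hH in
theorem nrm_eq_mul_lattNu (x : Θ.Latt H) : Θ.nrm x.1 = M * Θ.lattNu H x :=
  (Nat.mul_div_cancel' (Θ.dvd_nrm_of_mem H hH x)).symm

theorem tsTerm_mul (n : ℕ) (τ : ℍ) :
    tsTerm M (M * n) τ = Function.Periodic.qParam 1 τ ^ n := by
  have hM0 : (M : ℂ) ≠ 0 := by exact_mod_cast hM.out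
  rw [tsTerm, Function.Periodic.qParam, ← Complex.exp_nat_mul]
  congr 1
  push_cast
  field_simp

include hH in
/-- **the `q`-expansion of `θ_0`** -/
theorem hasSum_thetaH_zero (τ : ℍ) :
    HasSum (fun n : ℕ => (Θ.repCount H n : ℂ) • Function.Periodic.qParam 1 τ ^ n)
      (Θ.thetaH H 0 τ) := by
  classical
  have h1 : HasSum (fun x : X => if Θ.cls x ∈ H then tsTerm M (Θ.nrm x) τ else 0)
      (Θ.thetaH H 0 τ) := by
    rw [thetaH_zero_apply]
    exact (summable_ite_of_summable (Θ.summable τ) _).hasSum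
  have h2 : HasSum (fun x : Θ.Latt H => tsTerm M (Θ.nrm x.1) τ) (Θ.thetaH H 0 τ) := by
    have : (fun x : X => if Θ.cls x ∈ H then tsTerm M (Θ.nrm x) τ else 0) =
        Set.indicator {x : X | Θ.cls x ∈ H} (fun x => tsTerm M (Θ.nrm x) τ) := by
      funext x
      rw [Set.indicator_apply]
      rfl
    rw [this, ← hasSum_subtype_iff_indicator] at h1
    exact h1
  have h3 := h2.tsum_fiberwise (Θ.lattNu H)
  have h4 : (fun n : ℕ => ∑' b : (Θ.lattNu H ⁻¹' {n}), tsTerm M (Θ.nrm b.1.1) τ) =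
      fun n : ℕ => (Θ.repCount H n : ℂ) • Function.Periodic.qParam 1 τ ^ n := by
    funext n
    have : ∀ b : (Θ.lattNu H ⁻¹' {n}), tsTerm M (Θ.nrm b.1.1) τ =
        Function.Periodic.qParam 1 τ ^ n := by
      intro b
      have hb : Θ.lattNu H b.1 = n := b.2
      rw [Θ.nrm_eq_mul_lattNu H hH b.1, hb, tsTerm_mul]
    simp only [this]
    rw [tsum_const, repCount, Nat.cast_smul_eq_nsmul]
  rw [h4] at h3
  exact h3

include hH in
theorem repCount_zero : Θ.repCount H 0 = 1 := by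
  rw [repCount, Nat.card_eq_one_iff_unique]
  constructor
  · constructor
    intro a b
    have ha : Θ.nrm a.1.1 = 0 := by
      have h : Θ.lattNu H a.1 = 0 := a.2
      rw [Θ.nrm_eq_mul_lattNu H hH a.1, h, mul_zero]
    have hb : Θ.nrm b.1.1 = 0 := by
      have h : Θ.lattNu H b.1 = 0 := b.2
      rw [Θ.nrm_eq_mul_lattNu H hH b.1, h, mul_zero]
    rw [Θ.nrm_eq_zero] at ha hb
    apply Subtype.ext
    apply Subtype.ext
    rw [ha, hb]
  · have h0 : Θ.nrm (0 : X) = 0 := (Θ.nrm_eq_zero 0).mpr rfl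
    refine ⟨⟨⟨0, by rw [map_zero]; exact H.zero_mem⟩, ?_⟩⟩
    show Θ.lattNu H _ = 0
    rw [lattNu]
    show Θ.nrm (0 : X) / M = 0
    rw [h0, Nat.zero_div]

theorem finite_nrm_eq (m : ℕ) : {x : X | Θ.nrm x = m}.Finite := by
  have hs := (Θ.summable UpperHalfPlane.I).norm.tendsto_cofinite_zero
  have hpos : 0 < ‖tsTerm M m (UpperHalfPlane.I : ℍ)‖ := by
    rw [norm_tsTerm]
    exact Real.exp_pos _
  have hev := hs.eventually_lt_const hpos
  rw [Filter.eventually_cofinite] at hev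
  refine hev.subset (fun x hx => ?_)
  simp only [Set.mem_setOf_eq] at hx ⊢
  rw [hx]
  exact lt_irrefl _

include hH in
theorem finite_fiber (n : ℕ) : Finite (Θ.lattNu H ⁻¹' {n}) := by
  have hfin := Θ.finite_nrm_eq (M * n)
  haveI : Finite {x : X | Θ.nrm x = M * n} := hfin
  refine Finite.of_injective
    (fun b : (Θ.lattNu H ⁻¹' {n}) => (⟨b.1.1, ?_⟩ : {x : X | Θ.nrm x = M * n})) ?_
  · have hb : Θ.lattNu H b.1 = n := b.2
    show Θ.nrm b.1.1 = M * n
    rw [Θ.nrm_eq_mul_lattNu H hH b.1, hb]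
  · intro a b hab
    have : a.1.1 = b.1.1 := by
      have h := congrArg (fun c : {x : X | Θ.nrm x = M * n} => (c : X)) hab
      exact h
    exact Subtype.ext (Subtype.ext this)

include hH in
theorem even_repCount {n : ℕ} (hn : 1 ≤ n) : Even (Θ.repCount H n) := by
  classical
  haveI := Θ.finite_fiber H hH n
  haveI : Fintype (Θ.lattNu H ⁻¹' {n}) := Fintype.ofFinite _
  have hM0 : M ≠ 0 := hM.out
  have hnrm : ∀ b : (Θ.lattNu H ⁻¹' {n}), Θ.nrm b.1.1 = M * n := fun b => by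
    have hb : Θ.lattNu H b.1 = n := b.2
    rw [Θ.nrm_eq_mul_lattNu H hH b.1, hb]
  -- the involution `x ↦ -x`
  let neg' : (Θ.lattNu H ⁻¹' {n}) → (Θ.lattNu H ⁻¹' {n}) := fun b =>
    ⟨⟨-b.1.1, by rw [map_neg]; exact H.neg_mem b.1.2⟩, by
      show Θ.lattNu H _ = n
      have hb : Θ.lattNu H b.1 = n := b.2
      rw [lattNu] at hb ⊢
      show Θ.nrm (-b.1.1) / M = n
      rw [Θ.nrm_neg]
      exact hb⟩
  have hinv : Function.Involutive neg' := by
    intro b
    apply Subtype.ext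
    apply Subtype.ext
    show - -b.1.1 = b.1.1
    rw [neg_neg]
  let σ : Equiv.Perm (Θ.lattNu H ⁻¹' {n}) := hinv.toPerm
  have hσ2 : σ ^ 2 = 1 := by
    ext b
    rw [pow_two, Equiv.Perm.mul_apply]
    show ((neg' (neg' b) : (Θ.lattNu H ⁻¹' {n})) : Θ.Latt H) = _
    rw [hinv b]
    rfl
  have hsupp : σ.support = Finset.univ := by
    rw [Finset.eq_univ_iff_forall]
    intro b
    rw [Equiv.Perm.mem_support]
    intro hb
    have h1 : -b.1.1 = b.1.1 := congrArg (fun c : (Θ.lattNu H ⁻¹' {n}) => c.1.1) hb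
    have h2 := Θ.neg_eq_self _ h1
    have h3 := hnrm b
    rw [h2, (Θ.nrm_eq_zero 0).mpr rfl] at h3
    have : M * n ≠ 0 := Nat.mul_ne_zero hM0 (by omega)
    exact this h3.symm
  have h2 := Equiv.Perm.two_dvd_card_support hσ2
  rw [hsupp, Finset.card_univ] at h2
  rw [repCount, Nat.card_eq_fintype_card]
  exact even_iff_two_dvd.mpr h2

include hH in
/-- `θ_0 ≠ 0` -/
theorem thetaH_zero_ne_zero : Θ.thetaH H 0 ≠ 0 := by
  intro h0
  have h := Θ.hasSum_thetaH_zero H hH UpperHalfPlane.I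
  rw [h0, Pi.zero_apply] at h
  have hq : Function.Periodic.qParam 1 ((UpperHalfPlane.I : ℍ) : ℂ) =
      ((Real.exp (-(2 * π)) : ℝ) : ℂ) := by
    rw [Function.Periodic.qParam, UpperHalfPlane.coe_I]
    push_cast
    congr 1
    rw [div_one, mul_assoc, Complex.I_mul_I]
    ring
  have h' : HasSum (fun n : ℕ => (((Θ.repCount H n : ℝ) * Real.exp (-(2 * π)) ^ n : ℝ) : ℂ))
      ((0 : ℝ) : ℂ) := by
    rw [Complex.ofReal_zero]
    refine h.congr_fun (fun n => ?_)
    rw [hq]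
    push_cast
    rw [smul_eq_mul]
  rw [Complex.hasSum_ofReal] at h'
  have hnn : ∀ n : ℕ, 0 ≤ (Θ.repCount H n : ℝ) * Real.exp (-(2 * π)) ^ n := fun n => by positivity
  have := (hasSum_zero_iff_of_nonneg hnn).mp h'
  have h1 := congrFun this 0
  rw [Θ.repCount_zero H hH] at h1
  norm_num at h1

end ThetaSys

end Fermat.Agent.Eis
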