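import Mathlib

/-!
# P11 (S16), package B: a rational sum of `p`-th roots of unity is Galois invariant
-/

set_option autoImplicit false

open Polynomial

namespace Fermat.Agent.Eis

/-- if a sum of `p`-th roots of unity is rational, then replacing every root by its `j`-th power
(`p ∤ j`) does not change the sum -/
theorem sum_pow_eq_of_sum_eq_rat {p : ℕ} [hp : Fact p.Prime] {ι : Type*} [Fintype ι] (μ : ι → ℂ)
    (hμ : ∀ i, μ i ^ p = 1) (r : ℚ) (h1 : ∑ i, μ i = (r : ℂ)) (j : ℕ) (hj : ¬ p ∣ j) :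
    ∑ i, μ i ^ j = (r : ℂ) := by
  have hp0 : p ≠ 0 := hp.out.ne_zero
  have hζ : IsPrimitiveRoot (Complex.exp (2 * Real.pi * Complex.I / p)) p :=
    Complex.isPrimitiveRoot_exp p hp0
  set ζ := Complex.exp (2 * Real.pi * Complex.I / p) with hζdef
  have hex : ∀ i, ∃ t : ℕ, t < p ∧ ζ ^ t = μ i := fun i =>
    hζ.eq_pow_of_pow_eq_one (hμ i)
  choose t _ ht using hex
  set Q : ℚ[X] := ∑ i, X ^ t i - C r with hQ
  have hQζ : aeval ζ Q = 0 := by
    rw [hQ, map_sub, map_sum, aeval_C]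
    simp only [map_pow, aeval_X, ht]
    rw [h1]
    simp
  have hdvd : cyclotomic p ℚ ∣ Q := by
    rw [cyclotomic_eq_minpoly_rat hζ (Nat.pos_of_ne_zero hp0)]
    exact minpoly.dvd ℚ ζ hQζ
  have hζj : IsPrimitiveRoot (ζ ^ j) p :=
    hζ.pow_of_coprime j ((Nat.Prime.coprime_iff_not_dvd hp.out).mpr hj).symm
  have hroot : aeval (ζ ^ j) (cyclotomic p ℚ) = 0 := by
    have h := (isRoot_cyclotomic_iff (R := ℂ) (n := p)).mpr hζj
    rw [IsRoot.def, ← map_cyclotomic p (algebraMap ℚ ℂ), eval_map, ← aeval_def] at h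
    exact h
  obtain ⟨R, hR⟩ := hdvd
  have hQj : aeval (ζ ^ j) Q = 0 := by
    rw [hR, map_mul, hroot, zero_mul]
  rw [hQ, map_sub, map_sum, aeval_C] at hQj
  simp only [map_pow, aeval_X] at hQj
  have : ∀ i, (ζ ^ j) ^ t i = μ i ^ j := fun i => by
    rw [← ht i, ← pow_mul, ← pow_mul, mul_comm]
  simp only [this] at hQj
  rw [sub_eq_zero] at hQj
  rw [hQj]
  simp

end Fermat.Agent.Eis
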