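import Mathlib
import Fermat.Agent.Lib.Eis.Theta.Weil
import Fermat.Agent.Lib.Eis.Theta.Galois

/-!
# P11 (S16), package B: the relations satisfied by `θ_0`

For a weight two theta system and an isotropic subgroup `H` whose orthogonal complement has
level `p` (`p N(d) = 0` for `d ∈ H^⊥`), the theta series `f = θ_0` of `H` satisfies
`f | T = f`, `f | S | T^p = f | S` and `f | S | T^j | S = f | S | T^j'` for `j j' ≡ -1 mod p`.
The Gauss sums are evaluated by Milgram's formula (a consequence of `(ST)³ = -1`) and a Galois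
argument.
-/

set_option autoImplicit false

open Complex Real UpperHalfPlane ModularGroup
open scoped MatrixGroups Manifold ModularForm

namespace Fermat.Agent.Eis

theorem slash_neg_one_two (f : ℍ → ℂ) : f ∣[(2 : ℤ)] (-1 : SL(2, ℤ)) = f := by
  ext τ
  rw [ModularForm.SL_slash_apply, ModularGroup.SL_neg_smul, one_smul]
  have : denom ((-1 : SL(2, ℤ)) : GL (Fin 2) ℝ) τ = -1 := by
    simp [denom]
  rw [this]
  norm_num

theorem S_mul_S_eq_neg_one : (S * S : SL(2, ℤ)) = -1 := by decide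

theorem ST_pow_three : ((S * T) ^ 3 : SL(2, ℤ)) = -1 := by decide

namespace ThetaSys

variable {M : ℕ} [NeZero M] {𝔇 X : Type} [AddCommGroup 𝔇] [AddCommGroup X] [Fintype 𝔇]
  [DecidableEq 𝔇] (Θ : ThetaSys M 𝔇 X)

local notation "ψ" => (ZMod.stdAddChar : AddChar (ZMod M) ℂ)

section Relations

open scoped Classical

variable (H : AddSubgroup 𝔇) (hJ : ∀ τ : ℍ, Θ.J τ = -(τ : ℂ) ^ 2) (hH : ∀ h ∈ H, Θ.N h = 0)

include hH in
theorem thetaH_slash_T_pow {k : 𝔇} (hk : k ∈ Θ.orth H) (j : ℕ) :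
    Θ.thetaH H k ∣[(2 : ℤ)] (T ^ j) = ψ ((j : ZMod M) * Θ.N k) • Θ.thetaH H k := by
  induction j with
  | zero => simp
  | succ j ih =>
    rw [pow_succ, SlashAction.slash_mul, ih, ModularForm.SL_smul_slash,
      Θ.thetaH_slash_T H hH hk, smul_smul, ← AddChar.map_add_eq_mul]
    congr 2
    push_cast
    ring

include hH in
/-- **(R0)** -/
theorem thetaH_zero_slash_T : Θ.thetaH H 0 ∣[(2 : ℤ)] T = Θ.thetaH H 0 := by
  rw [Θ.thetaH_slash_T H hH (Θ.orth H).zero_mem, Θ.N_zero, AddChar.map_zero_eq_one, one_smul]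

include hJ hH in
theorem thetaH_zero_slash_S :
    Θ.thetaH H 0 ∣[(2 : ℤ)] S = (-Θ.κ) • ∑ d : Θ.orth H, Θ.thetaH H (d : 𝔇) := by
  rw [Θ.thetaH_slash_S H hJ hH (Θ.orth H).zero_mem]
  congr 1
  refine Finset.sum_congr rfl (fun d _ => ?_)
  rw [Θ.B_zero_left, AddChar.map_zero_eq_one, one_smul]

include hJ hH in
theorem thetaH_zero_slash_S_T_pow (j : ℕ) :
    (Θ.thetaH H 0 ∣[(2 : ℤ)] S) ∣[(2 : ℤ)] (T ^ j) =
      (-Θ.κ) • ∑ d : Θ.orth H, ψ ((j : ZMod M) * Θ.N (d : 𝔇)) • Θ.thetaH H (d : 𝔇) := by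
  rw [Θ.thetaH_zero_slash_S H hJ hH, ModularForm.SL_smul_slash, SlashAction.sum_slash]
  congr 1
  refine Finset.sum_congr rfl (fun d _ => ?_)
  exact Θ.thetaH_slash_T_pow H hH d.2 j

variable {p : ℕ} [hp : Fact p.Prime]
  (hlev : ∀ d ∈ Θ.orth H, (p : ZMod M) * Θ.N d = 0)

include hJ hH hlev in
/-- **(R1)** -/
theorem thetaH_zero_slash_S_T_pow_p :
    (Θ.thetaH H 0 ∣[(2 : ℤ)] S) ∣[(2 : ℤ)] (T ^ p) = Θ.thetaH H 0 ∣[(2 : ℤ)] S := by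
  rw [Θ.thetaH_zero_slash_S_T_pow H hJ hH, Θ.thetaH_zero_slash_S H hJ hH]
  congr 1
  refine Finset.sum_congr rfl (fun d _ => ?_)
  rw [hlev d d.2, AddChar.map_zero_eq_one, one_smul]

/-- the Gauss sums of the discriminant form -/
noncomputable def gaussH (j : ℕ) : ℂ := ∑ d : Θ.orth H, ψ ((j : ZMod M) * Θ.N (d : 𝔇))

include hlev in
theorem level_B {d m : 𝔇} (hd : d ∈ Θ.orth H) (hm : m ∈ Θ.orth H) :
    (p : ZMod M) * Θ.B d m = 0 := by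
  have h1 := hlev _ ((Θ.orth H).add_mem hd hm)
  rw [Θ.N_add, mul_add, mul_add, hlev d hd, hlev m hm, zero_add, zero_add] at h1
  exact h1

include hlev in
/-- completing the square -/
theorem sum_char_complete {j j' t' : ℕ} (hjj : j * j' + 1 = p * t') {m : 𝔇}
    (hm : m ∈ Θ.orth H) :
    ∑ d : Θ.orth H, ψ ((j : ZMod M) * Θ.N (d : 𝔇) + Θ.B (d : 𝔇) m) =
      ψ ((j' : ZMod M) * Θ.N m) * Θ.gaussH H j := by
  have hm' : (-(j' : ℤ)) • m ∈ Θ.orth H := (Θ.orth H).zsmul_mem hm _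
  rw [gaussH, Finset.mul_sum]
  refine Fintype.sum_equiv (Equiv.addRight (⟨_, hm'⟩ : Θ.orth H)) _ _ (fun d => ?_)
  rw [Equiv.coe_addRight, AddSubgroup.coe_add, ← AddChar.map_add_eq_mul]
  congr 1
  show _ = _ + (j : ZMod M) * Θ.N ((d : 𝔇) + (-(j' : ℤ)) • m)
  rw [Θ.N_add, Θ.N_zsmul, Θ.B_zsmul_right]
  have h1 : ((j : ZMod M) * j' + 1 : ZMod M) = (p : ZMod M) * t' := by
    have := congrArg (Nat.cast : ℕ → ZMod M) hjj
    push_cast at this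
    exact this
  have h2 := hlev m hm
  have h3 := Θ.level_B H hlev d.2 hm
  push_cast
  linear_combination (-((j' : ZMod M) * Θ.N m - Θ.B (d : 𝔇) m)) * h1 - (t' : ZMod M) * j' * h2 +
    (t' : ZMod M) * h3

include hJ hH hlev in
/-- **(W)** -/
theorem thetaH_zero_slash_S_T_pow_S {j j' t' : ℕ} (hjj : j * j' + 1 = p * t') :
    ((Θ.thetaH H 0 ∣[(2 : ℤ)] S) ∣[(2 : ℤ)] (T ^ j)) ∣[(2 : ℤ)] S =
      ((-Θ.κ) * Θ.gaussH H j) • ((Θ.thetaH H 0 ∣[(2 : ℤ)] S) ∣[(2 : ℤ)] (T ^ j')) := by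
  rw [Θ.thetaH_zero_slash_S_T_pow H hJ hH, Θ.thetaH_zero_slash_S_T_pow H hJ hH,
    ModularForm.SL_smul_slash, SlashAction.sum_slash, smul_smul, mul_comm (-Θ.κ * _), ← smul_smul]
  congr 1
  have h1 : ∀ d : Θ.orth H, (ψ ((j : ZMod M) * Θ.N (d : 𝔇)) • Θ.thetaH H (d : 𝔇)) ∣[(2 : ℤ)] S =
      (-Θ.κ) • ∑ m : Θ.orth H,
        ψ ((j : ZMod M) * Θ.N (d : 𝔇) + Θ.B (d : 𝔇) (m : 𝔇)) • Θ.thetaH H (m : 𝔇) := by
    intro d
    rw [ModularForm.SL_smul_slash, Θ.thetaH_slash_S H hJ hH d.2, smul_comm, Finset.smul_sum]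
    congr 1
    refine Finset.sum_congr rfl (fun m _ => ?_)
    rw [smul_smul, ← AddChar.map_add_eq_mul]
  simp only [h1]
  rw [← Finset.smul_sum, ← smul_smul]
  congr 1
  rw [Finset.sum_comm, Finset.smul_sum]
  refine Finset.sum_congr rfl (fun m _ => ?_)
  rw [← Finset.sum_smul, Θ.sum_char_complete H hlev hjj m.2, smul_smul, mul_comm]

include hJ hH hlev in
/-- **Milgram's formula**, from `(ST)³ = -1` -/
theorem milgram (hne : Θ.thetaH H 0 ≠ 0) : (-Θ.κ) * Θ.gaussH H 1 = 1 := by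
  have hp1 : 1 ≤ p := hp.out.one_le
  have hjj : 1 * (p - 1) + 1 = p * 1 := by omega
  set F := Θ.thetaH H 0 with hF
  set c := (-Θ.κ) * Θ.gaussH H 1 with hc
  have h1 : ((F ∣[(2 : ℤ)] S) ∣[(2 : ℤ)] T) ∣[(2 : ℤ)] S =
      c • ((F ∣[(2 : ℤ)] S) ∣[(2 : ℤ)] (T ^ (p - 1))) := by
    have := Θ.thetaH_zero_slash_S_T_pow_S H hJ hH hlev hjj
    rwa [pow_one] at this
  have h2 : (((F ∣[(2 : ℤ)] S) ∣[(2 : ℤ)] T) ∣[(2 : ℤ)] S) ∣[(2 : ℤ)] T = c • (F ∣[(2 : ℤ)] S) := by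
    rw [h1, ModularForm.SL_smul_slash, ← SlashAction.slash_mul, ← pow_succ,
      Nat.sub_add_cancel hp1, Θ.thetaH_zero_slash_S_T_pow_p H hJ hH hlev]
  have h3 : ((((F ∣[(2 : ℤ)] S) ∣[(2 : ℤ)] T) ∣[(2 : ℤ)] S) ∣[(2 : ℤ)] T) ∣[(2 : ℤ)] S = c • F := by
    rw [h2, ModularForm.SL_smul_slash, ← SlashAction.slash_mul, S_mul_S_eq_neg_one,
      slash_neg_one_two]
  have h4 : (((((F ∣[(2 : ℤ)] S) ∣[(2 : ℤ)] T) ∣[(2 : ℤ)] S) ∣[(2 : ℤ)] T) ∣[(2 : ℤ)] S)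
      ∣[(2 : ℤ)] T = c • F := by
    rw [h3, ModularForm.SL_smul_slash, Θ.thetaH_zero_slash_T H hH]
  have h5 : (((((F ∣[(2 : ℤ)] S) ∣[(2 : ℤ)] T) ∣[(2 : ℤ)] S) ∣[(2 : ℤ)] T) ∣[(2 : ℤ)] S)
      ∣[(2 : ℤ)] T = F := by
    simp only [← SlashAction.slash_mul]
    have : S * T * S * T * S * T = ((S * T) ^ 3 : SL(2, ℤ)) := by
      rw [pow_succ, pow_succ, pow_one]
      simp only [mul_assoc]
    rw [this, ST_pow_three, slash_neg_one_two]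
  have h6 : (c - 1) • F = 0 := by
    rw [sub_smul, one_smul, ← h4, h5, sub_self]
  rcases smul_eq_zero.mp h6 with h | h
  · exact sub_eq_zero.mp h
  · exact absurd h hne

include hJ hH hlev in
/-- the Gauss sums are all equal to `(-κ)⁻¹` -/
theorem gaussH_eq (hne : Θ.thetaH H 0 ≠ 0) (r : ℚ) (hr : (-Θ.κ)⁻¹ = (r : ℂ)) {j : ℕ}
    (hj : ¬ p ∣ j) : (-Θ.κ) * Θ.gaussH H j = 1 := by
  have hm := Θ.milgram H hJ hH hlev hne
  have hκ0 : -Θ.κ ≠ 0 := by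
    intro h
    rw [h, zero_mul] at hm
    exact zero_ne_one hm
  have h1 : Θ.gaussH H 1 = (r : ℂ) := by
    rw [← hr]
    exact eq_inv_of_mul_eq_one_right hm
  have hμ : ∀ d : Θ.orth H, ψ (Θ.N (d : 𝔇)) ^ p = 1 := by
    intro d
    rw [← AddChar.map_nsmul_eq_pow, nsmul_eq_mul, hlev d d.2, AddChar.map_zero_eq_one]
  have h1' : ∑ d : Θ.orth H, ψ (Θ.N (d : 𝔇)) = (r : ℂ) := by
    rw [← h1, gaussH]
    refine Finset.sum_congr rfl (fun d _ => ?_)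
    rw [Nat.cast_one, one_mul]
  have h2 := sum_pow_eq_of_sum_eq_rat (fun d : Θ.orth H => ψ (Θ.N (d : 𝔇))) hμ r h1' j hj
  have h3 : Θ.gaussH H j = (r : ℂ) := by
    rw [← h2, gaussH]
    refine Finset.sum_congr rfl (fun d _ => ?_)
    rw [← AddChar.map_nsmul_eq_pow, nsmul_eq_mul]
  rw [h3, ← hr, mul_inv_cancel₀ hκ0]

include hJ hH hlev in
/-- **(R2)** -/
theorem thetaH_zero_relation (hne : Θ.thetaH H 0 ≠ 0) (r : ℚ) (hr : (-Θ.κ)⁻¹ = (r : ℂ))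
    {j j' t' : ℕ} (hj : ¬ p ∣ j) (hjj : j * j' + 1 = p * t') :
    ((Θ.thetaH H 0 ∣[(2 : ℤ)] S) ∣[(2 : ℤ)] (T ^ j)) ∣[(2 : ℤ)] S =
      (Θ.thetaH H 0 ∣[(2 : ℤ)] S) ∣[(2 : ℤ)] (T ^ j') := by
  rw [Θ.thetaH_zero_slash_S_T_pow_S H hJ hH hlev hjj, Θ.gaussH_eq H hJ hH hlev hne r hr hj,
    one_smul]

/-- **(R0')** -/
theorem slash_S_slash_S (f : ℍ → ℂ) : (f ∣[(2 : ℤ)] S) ∣[(2 : ℤ)] S = f := by
  rw [← SlashAction.slash_mul, S_mul_S_eq_neg_one, slash_neg_one_two]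

end Relations

end ThetaSys

end Fermat.Agent.Eis
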