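import Mathlib

/-!
# P11 (S16), package B: from relations to `Γ₀(p)`-invariance

A function `f` with `f | T = f`, `f | S | S = f`, `f | S | T^p = f | S` and
`f | S | T^j | S = f | S | T^j'` whenever `j j' ≡ -1 mod p` is invariant under `Γ₀(p)`
(Schreier's lemma for the transversal `1, S T^b`, unrolled).
-/

set_option autoImplicit false

open UpperHalfPlane ModularGroup CongruenceSubgroup
open scoped MatrixGroups ModularForm

namespace Fermat.Agent.Eis

section Schreier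

variable (p : ℕ) [hp : Fact p.Prime]

/-- the coset representative attached to a bottom row `(c, d)` -/
noncomputable def schRep (c d : ℤ) : SL(2, ℤ) :=
  if (p : ℤ) ∣ c then 1 else S * T ^ (((d : ZMod p) * (c : ZMod p)⁻¹).val)

theorem schRep_neg (c d : ℤ) : schRep p (-c) (-d) = schRep p c d := by
  unfold schRep
  have h : ((-d : ℤ) : ZMod p) * ((-c : ℤ) : ZMod p)⁻¹ = (d : ZMod p) * (c : ZMod p)⁻¹ := by
    push_cast
    rw [inv_neg, neg_mul_neg]
  by_cases hc : (p : ℤ) ∣ c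
  · rw [if_pos hc, if_pos ((dvd_neg).mpr hc)]
  · rw [if_neg hc, if_neg (fun h' => hc ((dvd_neg).mp h')), h]

variable (f : ℍ → ℂ) (h0 : f ∣[(2 : ℤ)] T = f) (h0' : (f ∣[(2 : ℤ)] S) ∣[(2 : ℤ)] S = f)
  (h1 : (f ∣[(2 : ℤ)] S) ∣[(2 : ℤ)] (T ^ p) = f ∣[(2 : ℤ)] S)
  (h2 : ∀ j j' t' : ℕ, ¬ p ∣ j → j * j' + 1 = p * t' →
    ((f ∣[(2 : ℤ)] S) ∣[(2 : ℤ)] (T ^ j)) ∣[(2 : ℤ)] S = (f ∣[(2 : ℤ)] S) ∣[(2 : ℤ)] (T ^ j'))

include h0 h1 in
theorem schRep_slash_T (c d : ℤ) :
    (f ∣[(2 : ℤ)] schRep p c d) ∣[(2 : ℤ)] T = f ∣[(2 : ℤ)] schRep p c (c + d) := by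
  unfold schRep
  by_cases hc : (p : ℤ) ∣ c
  · rw [if_pos hc, if_pos hc, SlashAction.slash_one, h0]
  · rw [if_neg hc, if_neg hc]
    have hc0 : (c : ZMod p) ≠ 0 := by
      rwa [Ne, ZMod.intCast_zmod_eq_zero_iff_dvd]
    set b : ZMod p := (d : ZMod p) * (c : ZMod p)⁻¹ with hb
    have hb2 : ((c + d : ℤ) : ZMod p) * (c : ZMod p)⁻¹ = b + 1 := by
      push_cast
      rw [add_mul, mul_inv_cancel₀ hc0, add_comm]
    rw [hb2, ← SlashAction.slash_mul, mul_assoc, ← pow_succ]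
    by_cases hlt : b.val + 1 < p
    · have : (b + 1).val = b.val + 1 := by
        rw [ZMod.val_add, ZMod.val_one, Nat.mod_eq_of_lt hlt]
      rw [this]
    · have hble : b.val < p := ZMod.val_lt b
      have hbp : b.val + 1 = p := by omega
      have : (b + 1).val = 0 := by
        rw [ZMod.val_add, ZMod.val_one, hbp, Nat.mod_self]
      rw [this, hbp, pow_zero, mul_one, SlashAction.slash_mul, h1]

include h0' h2 in
theorem schRep_slash_S (c d : ℤ) (hcd : ¬ ((p : ℤ) ∣ c ∧ (p : ℤ) ∣ d)) :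
    (f ∣[(2 : ℤ)] schRep p c d) ∣[(2 : ℤ)] S = f ∣[(2 : ℤ)] schRep p d (-c) := by
  unfold schRep
  by_cases hc : (p : ℤ) ∣ c
  · have hd : ¬ (p : ℤ) ∣ d := fun hd => hcd ⟨hc, hd⟩
    rw [if_pos hc, if_neg hd, SlashAction.slash_one]
    have : ((-c : ℤ) : ZMod p) = 0 := by
      rw [ZMod.intCast_zmod_eq_zero_iff_dvd, dvd_neg]
      exact hc
    rw [this, zero_mul, ZMod.val_zero, pow_zero, mul_one]
  · rw [if_neg hc]
    have hc0 : (c : ZMod p) ≠ 0 := by
      rwa [Ne, ZMod.intCast_zmod_eq_zero_iff_dvd]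
    by_cases hd : (p : ℤ) ∣ d
    · rw [if_pos hd]
      have : (d : ZMod p) = 0 := by
        rwa [ZMod.intCast_zmod_eq_zero_iff_dvd]
      rw [this, zero_mul, ZMod.val_zero, pow_zero, mul_one, SlashAction.slash_one, h0']
    · rw [if_neg hd]
      have hd0 : (d : ZMod p) ≠ 0 := by
        rwa [Ne, ZMod.intCast_zmod_eq_zero_iff_dvd]
      set b : ZMod p := (d : ZMod p) * (c : ZMod p)⁻¹ with hb
      set b' : ZMod p := ((-c : ℤ) : ZMod p) * (d : ZMod p)⁻¹ with hb'
      have hbb : b * b' + 1 = 0 := by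
        rw [hb, hb']
        push_cast
        field_simp
        ring
      have hb0 : b ≠ 0 := mul_ne_zero hd0 (inv_ne_zero hc0)
      have hnd : ¬ p ∣ b.val := by
        intro h
        have := (ZMod.natCast_eq_zero_iff b.val p).mpr h
        rw [ZMod.natCast_zmod_val] at this
        exact hb0 this
      have hdvd : p ∣ b.val * b'.val + 1 := by
        rw [← ZMod.natCast_eq_zero_iff]
        push_cast
        rw [ZMod.natCast_zmod_val, ZMod.natCast_zmod_val]
        exact hbb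
      obtain ⟨t', ht'⟩ := hdvd
      rw [SlashAction.slash_mul, SlashAction.slash_mul, h2 _ _ _ hnd ht']

omit hp in
theorem not_dvd_bottom_row [hp : Fact p.Prime] (g : SL(2, ℤ)) :
    ¬ ((p : ℤ) ∣ g 1 0 ∧ (p : ℤ) ∣ g 1 1) := by
  rintro ⟨h1, h2⟩
  have hdet := g.det_coe
  rw [Matrix.det_fin_two] at hdet
  have : (p : ℤ) ∣ 1 := by
    rw [← hdet]
    exact dvd_sub (Dvd.dvd.mul_left h2 _) (Dvd.dvd.mul_left h1 _)
  have h3 := Int.le_of_dvd one_pos this
  have := hp.out.two_le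
  omega

theorem bottom_row_mul_S (g : SL(2, ℤ)) :
    (g * S) 1 0 = g 1 1 ∧ (g * S) 1 1 = -g 1 0 := by
  constructor
  · simp [Matrix.SpecialLinearGroup.coe_mul, ModularGroup.coe_S, Matrix.mul_apply,
      Fin.sum_univ_two]
  · simp [Matrix.SpecialLinearGroup.coe_mul, ModularGroup.coe_S, Matrix.mul_apply,
      Fin.sum_univ_two]

theorem bottom_row_mul_T (g : SL(2, ℤ)) :
    (g * T) 1 0 = g 1 0 ∧ (g * T) 1 1 = g 1 0 + g 1 1 := by
  constructor
  · simp [Matrix.SpecialLinearGroup.coe_mul, ModularGroup.coe_T, Matrix.mul_apply,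
      Fin.sum_univ_two]
  · simp [Matrix.SpecialLinearGroup.coe_mul, ModularGroup.coe_T, Matrix.mul_apply,
      Fin.sum_univ_two]

include h0 h0' h1 h2 in
/-- the slash action of any `g ∈ SL(2, ℤ)` on `f` only depends on the coset `Γ₀(p) g` -/
theorem slash_eq_slash_schRep (g : SL(2, ℤ)) :
    f ∣[(2 : ℤ)] g = f ∣[(2 : ℤ)] schRep p (g 1 0) (g 1 1) := by
  have hg : g ∈ Subgroup.closure ({S, T} : Set SL(2, ℤ)) := by
    simp [_root_.SpecialLinearGroup.SL2Z_generators]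
  induction hg using Subgroup.closure_induction_right with
  | one =>
    have : schRep p ((1 : SL(2, ℤ)) 1 0) ((1 : SL(2, ℤ)) 1 1) = 1 := by
      simp [schRep]
    rw [this]
  | mul_right x hx y hy ih =>
    rcases hy with rfl | hy
    · obtain ⟨e1, e2⟩ := bottom_row_mul_S x
      rw [SlashAction.slash_mul, ih, schRep_slash_S p f h0' h2 _ _ (not_dvd_bottom_row p x), e1, e2]
    · rw [Set.mem_singleton_iff] at hy
      subst hy
      obtain ⟨e1, e2⟩ := bottom_row_mul_T x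
      rw [SlashAction.slash_mul, ih, schRep_slash_T p f h0 h1, e1, e2]
  | mul_inv_cancel x hx y hy ih =>
    rcases hy with rfl | hy
    · -- `S⁻¹ = -S`
      have hS : x * S⁻¹ = (x * S) * (-1 : SL(2, ℤ)) := by
        rw [ModularGroup.S_inv]
        simp
      obtain ⟨e1, e2⟩ := bottom_row_mul_S x
      have e1' : (x * S⁻¹) 1 0 = -(x * S) 1 0 := by
        rw [hS]; simp
      have e2' : (x * S⁻¹) 1 1 = -(x * S) 1 1 := by
        rw [hS]; simp
      rw [e1', e2', schRep_neg, e1, e2, hS, SlashAction.slash_mul, SlashAction.slash_mul, ih,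
        schRep_slash_S p f h0' h2 _ _ (not_dvd_bottom_row p x)]
      ext τ
      rw [ModularForm.SL_slash_apply, ModularGroup.SL_neg_smul, one_smul]
      have : denom ((-1 : SL(2, ℤ)) : GL (Fin 2) ℝ) τ = -1 := by
        simp [denom]
      rw [this]
      norm_num
    · rw [Set.mem_singleton_iff] at hy
      subst hy
      have hx' : x = (x * T⁻¹) * T := by group
      obtain ⟨e1, e2⟩ := bottom_row_mul_T (x * T⁻¹)
      rw [← hx'] at e1 e2
      have key := schRep_slash_T p f h0 h1 ((x * T⁻¹) 1 0) ((x * T⁻¹) 1 1)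
      rw [e1, e2, ← key] at ih
      rw [SlashAction.slash_mul, ih, ← SlashAction.slash_mul, mul_inv_cancel,
        SlashAction.slash_one]

include h0 h0' h1 h2 in
/-- **`Γ₀(p)`-invariance from the relations** -/
theorem slash_eq_of_mem_gamma0 {γ : SL(2, ℤ)} (hγ : γ ∈ Gamma0 p) : f ∣[(2 : ℤ)] γ = f := by
  rw [slash_eq_slash_schRep p f h0 h0' h1 h2 γ]
  rw [Gamma0_mem, ZMod.intCast_zmod_eq_zero_iff_dvd] at hγ
  rw [schRep, if_pos hγ, SlashAction.slash_one]

end Schreier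

end Fermat.Agent.Eis
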