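import Mathlib
import Fermat.Agent.Lib.Eis.Theta.Relations
import Fermat.Agent.Lib.Eis.Theta.Schreier
import Fermat.Agent.Lib.Eis.Theta.QExp
import Fermat.Prelude.Thm_CongruenceSubgroup_one_mem_strictPeriods_Gamma0
import Fermat.Prelude.Def_FLTPrelim_Modularity

/-!
# P11 (S16), package B: the theta series of a level `p` lattice as a modular form on `Γ₀(p)`
-/

set_option autoImplicit false

open Complex Real UpperHalfPlane ModularGroup CongruenceSubgroup Matrix.SpecialLinearGroup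
open scoped MatrixGroups Manifold ModularForm

namespace Fermat.Agent.Eis

/-- slashing by an element of `SL(2, ℤ)`, as a linear map -/
noncomputable def slashLin (γ : SL(2, ℤ)) : (ℍ → ℂ) →ₗ[ℂ] (ℍ → ℂ) where
  toFun f := f ∣[(2 : ℤ)] γ
  map_add' f g := SlashAction.add_slash _ _ _ _
  map_smul' c f := by
    rw [ModularForm.SL_smul_slash]
    rfl

theorem slashLin_apply (γ : SL(2, ℤ)) (f : ℍ → ℂ) : slashLin γ f = f ∣[(2 : ℤ)] γ := rfl

namespace ThetaSys

variable {M : ℕ} [hM : NeZero M] {𝔇 X : Type} [AddCommGroup 𝔇] [AddCommGroup X] [Fintype 𝔇]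
  [DecidableEq 𝔇] (Θ : ThetaSys M 𝔇 X)

local notation "ψ" => (ZMod.stdAddChar : AddChar (ZMod M) ℂ)

/-- the span of the theta series -/
noncomputable def thetaSpan : Submodule ℂ (ℍ → ℂ) := Submodule.span ℂ (Set.range Θ.theta)

theorem theta_mem_thetaSpan (d : 𝔇) : Θ.theta d ∈ Θ.thetaSpan :=
  Submodule.subset_span ⟨d, rfl⟩

theorem isBoundedAtImInfty_of_mem_thetaSpan {f : ℍ → ℂ} (hf : f ∈ Θ.thetaSpan) :
    IsBoundedAtImInfty f := by
  induction hf using Submodule.span_induction with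
  | mem x hx =>
    obtain ⟨d, rfl⟩ := hx
    exact Θ.isBoundedAtImInfty_theta d
  | zero => exact Filter.const_boundedAtFilter _ (0 : ℂ)
  | add x y _ _ hx hy => exact hx.add hy
  | smul c x _ hx => exact Filter.BoundedAtFilter.smul c hx

variable (hJ : ∀ τ : ℍ, Θ.J τ = -(τ : ℂ) ^ 2)

theorem stdAddChar_ne_zero (x : ZMod M) : ψ x ≠ 0 := by
  intro h
  have := AddChar.map_add_eq_mul (ZMod.stdAddChar (N := M)) x (-x)
  rw [add_neg_cancel, AddChar.map_zero_eq_one, h, zero_mul] at this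
  exact one_ne_zero this

theorem slash_T_inv (d : 𝔇) :
    Θ.theta d ∣[(2 : ℤ)] T⁻¹ = (ψ (Θ.N d))⁻¹ • Θ.theta d := by
  have h1 : ((ψ (Θ.N d))⁻¹ • Θ.theta d) ∣[(2 : ℤ)] T = Θ.theta d := by
    rw [ModularForm.SL_smul_slash, Θ.slash_T, smul_smul,
      inv_mul_cancel₀ (stdAddChar_ne_zero (Θ.N d)), one_smul]
  conv_lhs => rw [← h1]
  rw [← SlashAction.slash_mul, mul_inv_cancel, SlashAction.slash_one]

include hJ in
theorem thetaSpan_slash_mem (γ : SL(2, ℤ)) {f : ℍ → ℂ} (hf : f ∈ Θ.thetaSpan) :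
    f ∣[(2 : ℤ)] γ ∈ Θ.thetaSpan := by
  have hS : ∀ f ∈ Θ.thetaSpan, f ∣[(2 : ℤ)] S ∈ Θ.thetaSpan := by
    intro f hf
    have : Θ.thetaSpan.map (slashLin S) ≤ Θ.thetaSpan := by
      rw [thetaSpan, Submodule.map_span, Submodule.span_le]
      rintro _ ⟨_, ⟨d, rfl⟩, rfl⟩
      rw [slashLin_apply, Θ.slash_S hJ]
      refine Submodule.smul_mem _ _ (Submodule.sum_mem _ (fun d' _ => ?_))
      exact Submodule.smul_mem _ _ (Θ.theta_mem_thetaSpan d')
    exact this ⟨f, hf, rfl⟩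
  have hT : ∀ f ∈ Θ.thetaSpan, f ∣[(2 : ℤ)] T ∈ Θ.thetaSpan := by
    intro f hf
    have : Θ.thetaSpan.map (slashLin T) ≤ Θ.thetaSpan := by
      rw [thetaSpan, Submodule.map_span, Submodule.span_le]
      rintro _ ⟨_, ⟨d, rfl⟩, rfl⟩
      rw [slashLin_apply, Θ.slash_T]
      exact Submodule.smul_mem _ _ (Θ.theta_mem_thetaSpan d)
    exact this ⟨f, hf, rfl⟩
  have hT' : ∀ f ∈ Θ.thetaSpan, f ∣[(2 : ℤ)] T⁻¹ ∈ Θ.thetaSpan := by
    intro f hf
    have : Θ.thetaSpan.map (slashLin T⁻¹) ≤ Θ.thetaSpan := by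
      rw [thetaSpan, Submodule.map_span, Submodule.span_le]
      rintro _ ⟨_, ⟨d, rfl⟩, rfl⟩
      rw [slashLin_apply, Θ.slash_T_inv]
      exact Submodule.smul_mem _ _ (Θ.theta_mem_thetaSpan d)
    exact this ⟨f, hf, rfl⟩
  have hS' : ∀ f ∈ Θ.thetaSpan, f ∣[(2 : ℤ)] S⁻¹ ∈ Θ.thetaSpan := by
    intro f hf
    have e : (S⁻¹ : SL(2, ℤ)) = S * (-1) := by
      rw [ModularGroup.S_inv]; simp
    rw [e, SlashAction.slash_mul, slash_neg_one_two]
    exact hS f hf
  have hγ : γ ∈ Subgroup.closure ({S, T} : Set SL(2, ℤ)) := by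
    simp [_root_.SpecialLinearGroup.SL2Z_generators]
  induction hγ using Subgroup.closure_induction_right with
  | one => rwa [SlashAction.slash_one]
  | mul_right x hx y hy ih =>
    rw [SlashAction.slash_mul]
    rcases hy with rfl | hy
    · exact hS _ ih
    · rw [Set.mem_singleton_iff] at hy
      subst hy
      exact hT _ ih
  | mul_inv_cancel x hx y hy ih =>
    rw [SlashAction.slash_mul]
    rcases hy with rfl | hy
    · exact hS' _ ih
    · rw [Set.mem_singleton_iff] at hy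
      subst hy
      exact hT' _ ih

section Form

open scoped Classical

variable (H : AddSubgroup 𝔇) (hH : ∀ h ∈ H, Θ.N h = 0) (p : ℕ) [hp : Fact p.Prime]
  (hlev : ∀ d ∈ Θ.orth H, (p : ZMod M) * Θ.N d = 0) (r : ℚ) (hr : (-Θ.κ)⁻¹ = (r : ℂ))

theorem thetaH_mem_thetaSpan (k : 𝔇) : Θ.thetaH H k ∈ Θ.thetaSpan :=
  Submodule.sum_mem _ (fun c _ => Θ.theta_mem_thetaSpan _)

theorem mdifferentiable_thetaH (k : 𝔇) : MDifferentiable 𝓘(ℂ) 𝓘(ℂ) (Θ.thetaH H k) := by
  rw [thetaH]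
  have : ∀ s : Finset H, MDifferentiable 𝓘(ℂ) 𝓘(ℂ) (∑ c ∈ s, Θ.theta (k + (c : 𝔇))) := by
    intro s
    induction s using Finset.induction_on with
    | empty =>
      rw [Finset.sum_empty]
      exact mdifferentiable_const
    | insert a s ha ih =>
      rw [Finset.sum_insert ha]
      exact (Θ.holo _).add ih
  exact this _

include hJ hH hlev hr in
theorem thetaH_zero_slash_gamma0 {γ : SL(2, ℤ)} (hγ : γ ∈ Gamma0 p) :
    Θ.thetaH H 0 ∣[(2 : ℤ)] γ = Θ.thetaH H 0 := by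
  have hne := Θ.thetaH_zero_ne_zero H hH
  refine slash_eq_of_mem_gamma0 p (Θ.thetaH H 0) (Θ.thetaH_zero_slash_T H hH)
    (slash_S_slash_S _) (Θ.thetaH_zero_slash_S_T_pow_p H hJ hH hlev) ?_ hγ
  intro j j' t' hj hjj
  exact Θ.thetaH_zero_relation H hJ hH hlev hne r hr hj hjj

/-- **the theta series of a level `p` lattice as a modular form on `Γ₀(p)`** -/
noncomputable def thetaForm : ModularForm (Subgroup.map (mapGL ℝ) (Gamma0 p)) 2 where
  toFun := Θ.thetaH H 0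
  slash_action_eq' x hx := by
    obtain ⟨γ, hγ, rfl⟩ := hx
    have := Θ.thetaH_zero_slash_gamma0 hJ H hH p hlev r hr hγ
    rw [ModularForm.SL_slash] at this
    exact this
  holo' := Θ.mdifferentiable_thetaH H 0
  bdd_at_cusps' {c} hc := by
    have hc' : IsCusp c 𝒮ℒ := (Subgroup.IsArithmetic.isCusp_iff_isCusp_SL2Z _).mp hc
    rw [OnePoint.isBoundedAt_iff_forall_SL2Z hc']
    intro γ _
    exact Θ.isBoundedAtImInfty_of_mem_thetaSpan
      (Θ.thetaSpan_slash_mem hJ γ (Θ.thetaH_mem_thetaSpan H 0))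

theorem coe_thetaForm : ⇑(Θ.thetaForm hJ H hH p hlev r hr) = Θ.thetaH H 0 := rfl

theorem qCoeff_thetaForm (n : ℕ) :
    ModularFormClass.qCoeff ⇑(Θ.thetaForm hJ H hH p hlev r hr) n = (Θ.repCount H n : ℂ) :=
  (ModularFormClass.qExpansion_coeff_unique (f := Θ.thetaForm hJ H hH p hlev r hr) one_pos
    (CongruenceSubgroup.one_mem_strictPeriods_Gamma0 p)
    (fun τ => Θ.hasSum_thetaH_zero H hH τ) n).symm

end Form

end ThetaSys

end Fermat.Agent.Eis
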