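import Mathlib
import Fermat.Agent.Lib.Eis.Theta.ThetaSys

/-!
# P11 (S16), package B: the one-variable theta system

`thetaSysOne a w M (hM : M = 4 a w)`: the theta system of the lattice `ℤ` with the quadratic form
`a x²`, whose values are measured in `ℤ/M` (`w = M/(4a)`).
-/

set_option autoImplicit false

open Complex Real UpperHalfPlane
open scoped MatrixGroups Manifold

namespace Fermat.Agent.Eis

section One

variable (a w M : ℕ) [ha : NeZero a] [hw : NeZero w] [hM0 : NeZero M] (hM : M = 4 * a * w)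

/-- the quadratic form `w x²` on `ℤ/2a`, with values in `ℤ/M` -/
def oneN (m : ZMod (2 * a)) : ZMod M := ((w * (ZMod.cast m : ℤ) ^ 2 : ℤ) : ZMod M)

/-- the bilinear form `2 w x y` on `ℤ/2a`, with values in `ℤ/M` -/
def oneB (m m' : ZMod (2 * a)) : ZMod M :=
  ((2 * w * (ZMod.cast m : ℤ) * (ZMod.cast m' : ℤ) : ℤ) : ZMod M)

omit hw hM0 in
theorem exists_cast_eq (x : ℤ) : ∃ c : ℤ, (ZMod.cast (x : ZMod (2 * a)) : ℤ) = x + 2 * a * c := by
  rw [ZMod.coe_intCast]
  refine ⟨-(x / ((2 * a : ℕ) : ℤ)), ?_⟩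
  have := Int.emod_add_mul_ediv x ((2 * a : ℕ) : ℤ)
  push_cast at this ⊢
  linarith

include hM in
omit hw hM0 in
theorem oneN_intCast (x : ℤ) : oneN a w M (x : ZMod (2 * a)) = ((w * x ^ 2 : ℤ) : ZMod M) := by
  obtain ⟨c, hc⟩ := exists_cast_eq a x
  rw [oneN, hc, ZMod.intCast_eq_intCast_iff_dvd_sub]
  refine ⟨-(c * (x + a * c)), ?_⟩
  rw [hM]
  push_cast
  ring

include hM in
omit hw hM0 in
theorem oneB_intCast (x y : ℤ) :
    oneB a w M (x : ZMod (2 * a)) (y : ZMod (2 * a)) = ((2 * w * x * y : ℤ) : ZMod M) := by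
  obtain ⟨c, hc⟩ := exists_cast_eq a x
  obtain ⟨c', hc'⟩ := exists_cast_eq a y
  rw [oneB, hc, hc', ZMod.intCast_eq_intCast_iff_dvd_sub]
  refine ⟨-(c' * x + c * y + 2 * a * c * c'), ?_⟩
  rw [hM]
  push_cast
  ring

include hM in
omit hM0 in
theorem tsTerm_one_eq (τ : ℂ) (x : ℤ) :
    tsTerm M (w * x.natAbs ^ 2) τ = thetaTerm a τ x := by
  have ha0 : (a : ℂ) ≠ 0 := by exact_mod_cast ha.out
  have hw0 : (w : ℂ) ≠ 0 := by exact_mod_cast hw.out
  rw [tsTerm, thetaTerm, hM]
  congr 1
  have : ((x.natAbs : ℕ) : ℂ) ^ 2 = (x : ℂ) ^ 2 := by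
    have h := Int.natAbs_sq x
    have : ((x.natAbs : ℤ) : ℂ) ^ 2 = (x : ℂ) ^ 2 := by exact_mod_cast congrArg (Int.cast : ℤ → ℂ) h
    simpa using this
  push_cast
  rw [this]
  field_simp

/-- the theta data of the lattice `ℤ` with the quadratic form `a x²` -/
def thetaDataOne : ThetaData M (ZMod (2 * a)) ℤ where
  cls := Int.castAddHom (ZMod (2 * a))
  nrm x := w * x.natAbs ^ 2
  N := oneN a w M
  B := oneB a w M
  nrm_cls x := by
    show _ = oneN a w M ((x : ℤ) : ZMod (2 * a))
    rw [oneN_intCast a w M hM]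
    have h := Int.natAbs_sq x
    push_cast
    have h' : ((x.natAbs : ℕ) : ZMod M) ^ 2 = ((x : ℤ) : ZMod M) ^ 2 := by
      have := congrArg (Int.cast : ℤ → ZMod M) h
      rw [Int.cast_pow, Int.cast_pow, Int.cast_natCast] at this
      exact this
    rw [h']
  nrm_neg x := by simp
  nrm_eq_zero x := by
    have := hw.out
    simp [this]
  neg_eq_self x h := by omega
  N_add x y := by
    obtain ⟨x, rfl⟩ := ZMod.intCast_surjective x
    obtain ⟨y, rfl⟩ := ZMod.intCast_surjective y
    rw [← Int.cast_add, oneN_intCast a w M hM, oneN_intCast a w M hM, oneN_intCast a w M hM,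
      oneB_intCast a w M hM]
    push_cast
    ring
  N_zsmul n x := by
    obtain ⟨x, rfl⟩ := ZMod.intCast_surjective x
    rw [zsmul_eq_mul, ← Int.cast_mul, oneN_intCast a w M hM, oneN_intCast a w M hM]
    push_cast
    ring
  B_add_right x y z := by
    obtain ⟨x, rfl⟩ := ZMod.intCast_surjective x
    obtain ⟨y, rfl⟩ := ZMod.intCast_surjective y
    obtain ⟨z, rfl⟩ := ZMod.intCast_surjective z
    rw [← Int.cast_add, oneB_intCast a w M hM, oneB_intCast a w M hM, oneB_intCast a w M hM]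
    push_cast
    ring
  B_symm x y := by
    obtain ⟨x, rfl⟩ := ZMod.intCast_surjective x
    obtain ⟨y, rfl⟩ := ZMod.intCast_surjective y
    rw [oneB_intCast a w M hM, oneB_intCast a w M hM]
    push_cast
    ring
  summable τ := by
    refine (summable_thetaTerm a τ.2).congr (fun x => ?_)
    exact (tsTerm_one_eq a w M hM τ x).symm

theorem thetaDataOne_theta (m : ZMod (2 * a)) (τ : ℍ) :
    (thetaDataOne a w M hM).theta m τ = thetaOne a m τ := by
  rw [ThetaData.theta, thetaOne]
  refine tsum_congr (fun x => ?_)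
  have : (thetaDataOne a w M hM).cls x = (x : ZMod (2 * a)) := rfl
  rw [this]
  split_ifs
  · exact tsTerm_one_eq a w M hM τ x
  · rfl

/-- the theta system of the lattice `ℤ` with the quadratic form `a x²` -/
noncomputable def thetaSysOne : ThetaSys M (ZMod (2 * a)) ℤ where
  toThetaData := thetaDataOne a w M hM
  J τ := (-Complex.I * (τ : ℂ)) ^ (1 / 2 : ℂ)
  κ := 1 / (Real.sqrt (2 * a) : ℂ)
  trans_S m τ := by
    obtain ⟨m, rfl⟩ := ZMod.intCast_surjective m
    have ha0 : (0 : ℝ) < 2 * a := by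
      have := Nat.pos_of_ne_zero ha.out
      positivity
    have hS : ((ModularGroup.S • τ : ℍ) : ℂ) = -1 / (τ : ℂ) := by
      rw [UpperHalfPlane.modular_S_smul, UpperHalfPlane.coe_mk, neg_div, one_div, inv_neg]
    simp only [thetaDataOne_theta]
    rw [hS, thetaOne_inv a m τ.2]
    have hw' : -Complex.I * (τ : ℂ) ≠ 0 :=
      mul_ne_zero (neg_ne_zero.mpr Complex.I_ne_zero) τ.ne_zero
    have e1 : -Complex.I * ((τ : ℂ) / (2 * a)) = (-Complex.I * (τ : ℂ)) / ((2 * a : ℝ) : ℂ) := by
      push_cast; ring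
    rw [e1, cpow_half_div hw' ha0, div_eq_mul_one_div]
    congr 1
    refine Finset.sum_congr rfl (fun m' _ => ?_)
    obtain ⟨m', rfl⟩ := ZMod.intCast_surjective m'
    congr 1
    have : (thetaDataOne a w M hM).B (m : ZMod (2 * a)) (m' : ZMod (2 * a)) =
        ((2 * w * m * m' : ℤ) : ZMod M) := oneB_intCast a w M hM m m'
    rw [this, ← Int.cast_mul, ZMod.stdAddChar_coe, ZMod.stdAddChar_coe, hM]
    have ha0 : (a : ℂ) ≠ 0 := by exact_mod_cast ha.out
    have hw0 : (w : ℂ) ≠ 0 := by exact_mod_cast hw.out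
    congr 1
    push_cast
    field_simp
    ring
  holo m := by
    rw [UpperHalfPlane.mdifferentiable_iff]
    intro z hz
    have h1 : DifferentiableAt ℂ (thetaOne a m) z := differentiableAt_thetaOne a m hz
    refine (h1.congr_of_eventuallyEq ?_).differentiableWithinAt
    have hopen : IsOpen {z : ℂ | 0 < z.im} := isOpen_lt continuous_const Complex.continuous_im
    filter_upwards [hopen.mem_nhds hz] with t ht
    rw [Function.comp_apply, UpperHalfPlane.ofComplex_apply_of_im_pos ht,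
      thetaDataOne_theta]

end One

end Fermat.Agent.Eis
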