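import Mathlib
import Fermat.Agent.Lib.Eis.Theta.ThetaSysOne
import Fermat.Agent.Lib.Eis.Theta.ThetaForm
import Fermat.Agent.Lib.Eis.Theta.AuxPrime

/-!
# P11 (S16), package B: an even quaternary lattice of level `p` and determinant `p²`

Inside `ℚ⁴` with the quadratic form `x₁² + p x₂² + q x₃² + p q x₄²` (`q ≡ 3 mod 4`, `q ∣ r² + p`),
the lattice generated by `ℤ⁴`, `(1/2, 0, 1/2, 0)`, `(0, 1/2, 0, 1/2)`, `(0, 0, r/q, 1/q)`
(Ibukiyama's maximal order in the quaternion algebra `(-p, -q)`).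
-/

set_option autoImplicit false

open Complex Real UpperHalfPlane
open scoped MatrixGroups Manifold

namespace Fermat.Agent.Eis

section Lattice

variable (p q : ℕ) [hp : NeZero p] [hq : NeZero q]

/-- the modulus `4 p q` -/
abbrev latM : ℕ := 4 * p * q

instance : NeZero (latM p q) := ⟨by
  have := hp.out
  have := hq.out
  unfold latM
  positivity⟩

instance : NeZero (p * q) := ⟨Nat.mul_ne_zero hp.out hq.out⟩

/-- the discriminant group of the diagonal lattice -/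
abbrev LatD : Type := (ZMod (2 * 1) × ZMod (2 * p)) × (ZMod (2 * q) × ZMod (2 * (p * q)))

/-- the diagonal lattice `ℤ⁴` (in the coordinates `2 a_i x_i`) -/
abbrev LatX : Type := (ℤ × ℤ) × (ℤ × ℤ)

/-- the theta system of the diagonal lattice -/
noncomputable def latSys : ThetaSys (latM p q) (LatD p q) LatX :=
  ((thetaSysOne 1 (p * q) (latM p q) (by unfold latM; ring)).prod
    (thetaSysOne p q (latM p q) (by unfold latM; ring))).prod
  ((thetaSysOne q p (latM p q) (by unfold latM; ring)).prod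
    (thetaSysOne (p * q) 1 (latM p q) (by unfold latM; ring)))

theorem latSys_nrm (x : LatX) :
    (latSys p q).nrm x = (p * q * x.1.1.natAbs ^ 2 + q * x.1.2.natAbs ^ 2) +
      (p * x.2.1.natAbs ^ 2 + 1 * x.2.2.natAbs ^ 2) := rfl

theorem latSys_cls (x : LatX) :
    (latSys p q).cls x = (((x.1.1 : ZMod (2 * 1)), (x.1.2 : ZMod (2 * p))),
      ((x.2.1 : ZMod (2 * q)), (x.2.2 : ZMod (2 * (p * q))))) := rfl

theorem latSys_nrm_int (x : LatX) :
    (((latSys p q).nrm x : ℕ) : ℤ) =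
      p * q * x.1.1 ^ 2 + q * x.1.2 ^ 2 + p * x.2.1 ^ 2 + x.2.2 ^ 2 := by
  rw [latSys_nrm]
  push_cast
  simp only [Int.natCast_natAbs, sq_abs]
  ring

/-- the quadratic form of the class of an integer vector -/
theorem latSys_N_cls (x : LatX) :
    (latSys p q).N ((latSys p q).cls x) =
      ((p * q * x.1.1 ^ 2 + q * x.1.2 ^ 2 + p * x.2.1 ^ 2 + x.2.2 ^ 2 : ℤ) : ZMod (latM p q)) := by
  rw [← (latSys p q).nrm_cls, ← latSys_nrm_int, Int.cast_natCast]

/-- the bilinear form of the classes of two integer vectors -/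
theorem latSys_B_cls (x y : LatX) :
    (latSys p q).B ((latSys p q).cls x) ((latSys p q).cls y) =
      ((2 * (p * q * x.1.1 * y.1.1 + q * x.1.2 * y.1.2 + p * x.2.1 * y.2.1 + x.2.2 * y.2.2) : ℤ) :
        ZMod (latM p q)) := by
  have h := (latSys p q).N_add ((latSys p q).cls x) ((latSys p q).cls y)
  rw [← map_add, latSys_N_cls, latSys_N_cls, latSys_N_cls] at h
  have h' : (latSys p q).B ((latSys p q).cls x) ((latSys p q).cls y) =
      ((p * q * (x + y).1.1 ^ 2 + q * (x + y).1.2 ^ 2 + p * (x + y).2.1 ^ 2 + (x + y).2.2 ^ 2 : ℤ) :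
        ZMod (latM p q)) -
      ((p * q * x.1.1 ^ 2 + q * x.1.2 ^ 2 + p * x.2.1 ^ 2 + x.2.2 ^ 2 : ℤ) : ZMod (latM p q)) -
      ((p * q * y.1.1 ^ 2 + q * y.1.2 ^ 2 + p * y.2.1 ^ 2 + y.2.2 ^ 2 : ℤ) : ZMod (latM p q)) := by
    rw [h]; ring
  rw [h', ← Int.cast_sub, ← Int.cast_sub]
  congr 1
  simp only [Prod.fst_add, Prod.snd_add]
  ring

theorem latSys_cls_surjective : Function.Surjective (latSys p q).cls := by
  rintro ⟨⟨d1, d2⟩, ⟨d3, d4⟩⟩
  obtain ⟨m1, rfl⟩ := ZMod.intCast_surjective d1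
  obtain ⟨m2, rfl⟩ := ZMod.intCast_surjective d2
  obtain ⟨m3, rfl⟩ := ZMod.intCast_surjective d3
  obtain ⟨m4, rfl⟩ := ZMod.intCast_surjective d4
  exact ⟨((m1, m2), (m3, m4)), rfl⟩

theorem latSys_J (τ : ℍ) : (latSys p q).J τ = -(τ : ℂ) ^ 2 := by
  have hw : -Complex.I * (τ : ℂ) ≠ 0 := mul_ne_zero (neg_ne_zero.mpr Complex.I_ne_zero) τ.ne_zero
  have h1 : (-Complex.I * (τ : ℂ)) ^ (1 / 2 : ℂ) * (-Complex.I * (τ : ℂ)) ^ (1 / 2 : ℂ) =
      -Complex.I * (τ : ℂ) := by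
    rw [← Complex.cpow_add _ _ hw]
    norm_num
  show ((-Complex.I * (τ : ℂ)) ^ (1 / 2 : ℂ) * (-Complex.I * (τ : ℂ)) ^ (1 / 2 : ℂ)) *
    ((-Complex.I * (τ : ℂ)) ^ (1 / 2 : ℂ) * (-Complex.I * (τ : ℂ)) ^ (1 / 2 : ℂ)) = _
  rw [h1]
  ring_nf
  rw [Complex.I_sq]
  ring

theorem latSys_kappa : (latSys p q).κ = 1 / (4 * p * q : ℂ) := by
  show (1 / (Real.sqrt (2 * (1 : ℕ)) : ℂ) * (1 / (Real.sqrt (2 * (p : ℕ)) : ℂ))) *
    (1 / (Real.sqrt (2 * (q : ℕ)) : ℂ) * (1 / (Real.sqrt (2 * ((p * q : ℕ) : ℝ)) : ℂ))) = _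
  have hp0 : (0 : ℝ) ≤ p := Nat.cast_nonneg p
  have hq0 : (0 : ℝ) ≤ q := Nat.cast_nonneg q
  have h : Real.sqrt (2 * ((1 : ℕ) : ℝ)) * Real.sqrt (2 * (p : ℝ)) *
      (Real.sqrt (2 * (q : ℝ)) * Real.sqrt (2 * ((p * q : ℕ) : ℝ))) = 4 * p * q := by
    rw [← Real.sqrt_mul (by positivity), ← Real.sqrt_mul (by positivity),
      ← Real.sqrt_mul (by positivity)]
    have : (2 * ((1 : ℕ) : ℝ) * (2 * (p : ℝ)) * (2 * (q : ℝ) * (2 * ((p * q : ℕ) : ℝ)))) =
        (4 * p * q) ^ 2 := by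
      push_cast; ring
    rw [this, Real.sqrt_sq (by positivity)]
  have h' := congrArg (fun x : ℝ => (x : ℂ)) h
  simp only [Complex.ofReal_mul] at h'
  rw [div_mul_div_comm, div_mul_div_comm, div_mul_div_comm, h']
  push_cast
  norm_num

/-! ### The glue -/

variable (r : ℕ)

/-- the glue vectors `x (1/2, 0, 1/2, 0) + y (0, 1/2, 0, 1/2) + z (0, 0, r/q, 1/q)` -/
def latGlue : ℤ × ℤ × ℤ →+ LatX where
  toFun v := ((v.1, p * v.2.1), (q * v.1 + 2 * r * v.2.2, p * q * v.2.1 + 2 * p * v.2.2))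
  map_zero' := by simp
  map_add' a b := by
    ext <;> simp <;> ring

theorem latGlue_apply (x y z : ℤ) :
    latGlue p q r (x, y, z) = ((x, p * y), (q * x + 2 * r * z, p * q * y + 2 * p * z)) := rfl

/-- the isotropic subgroup `Λ/ℤ⁴` of the discriminant group of `ℤ⁴` -/
noncomputable def latH : AddSubgroup (LatD p q) := ((latSys p q).cls.comp (latGlue p q r)).range

theorem mem_latH_glue (x y z : ℤ) : (latSys p q).cls (latGlue p q r (x, y, z)) ∈ latH p q r :=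
  ⟨(x, y, z), rfl⟩

variable (hq4 : q % 4 = 3) (hqr : q ∣ r ^ 2 + p)

include hq4 in
omit hp hq in
theorem exists_q_add_one : ∃ s : ℤ, (q : ℤ) + 1 = 4 * s := by
  refine ⟨(q / 4 : ℕ) + 1, ?_⟩
  have := Nat.div_add_mod q 4
  push_cast
  omega

include hqr in
omit hp hq in
theorem exists_r_sq_add : ∃ u : ℤ, (r : ℤ) ^ 2 + p = q * u := by
  obtain ⟨u, hu⟩ := hqr
  exact ⟨u, by exact_mod_cast hu⟩

include hq4 hqr in
/-- **(b)** the glue subgroup is isotropic -/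
theorem latH_isotropic : ∀ h ∈ latH p q r, (latSys p q).N h = 0 := by
  rintro _ ⟨⟨x, y, z⟩, rfl⟩
  obtain ⟨s, hs⟩ := exists_q_add_one q hq4
  obtain ⟨u, hu⟩ := exists_r_sq_add p q r hqr
  show (latSys p q).N ((latSys p q).cls (latGlue p q r (x, y, z))) = 0
  rw [latSys_N_cls, latGlue_apply, ZMod.intCast_zmod_eq_zero_iff_dvd]
  refine ⟨s * x ^ 2 + p * s * y ^ 2 + r * x * z + p * y * z + u * z ^ 2, ?_⟩
  push_cast
  linear_combination ((p : ℤ) * q * x ^ 2 + (p : ℤ) ^ 2 * q * y ^ 2) * hs + 4 * (p : ℤ) * z ^ 2 * hu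

include hq4 hqr in
/-- **(c)** the orthogonal complement of the glue subgroup has level `p` -/
theorem latH_level : ∀ d ∈ (latSys p q).orth (latH p q r),
    ((p : ℕ) : ZMod (latM p q)) * (latSys p q).N d = 0 := by
  intro d hd
  obtain ⟨⟨⟨m1, m2⟩, ⟨m3, m4⟩⟩, rfl⟩ := latSys_cls_surjective p q d
  obtain ⟨s, hs⟩ := exists_q_add_one q hq4
  obtain ⟨u, hu⟩ := exists_r_sq_add p q r hqr
  have hp0 : (p : ℤ) ≠ 0 := by exact_mod_cast hp.out
  have hq0 : (q : ℤ) ≠ 0 := by exact_mod_cast hq.out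
  have h1 := hd _ (mem_latH_glue p q r 1 0 0)
  have h2 := hd _ (mem_latH_glue p q r 0 1 0)
  have h3 := hd _ (mem_latH_glue p q r 0 0 1)
  rw [latSys_B_cls, latGlue_apply, ZMod.intCast_zmod_eq_zero_iff_dvd] at h1 h2 h3
  obtain ⟨a, ha⟩ := h1
  obtain ⟨b, hb⟩ := h2
  obtain ⟨c, hc⟩ := h3
  simp only at ha hb hc
  push_cast at ha hb hc
  have e1 : m1 + m3 = 2 * a := by
    have h : (2 * (p : ℤ) * q) * (m1 + m3) = (2 * (p : ℤ) * q) * (2 * a) := by
      linear_combination ha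
    exact mul_left_cancel₀ (by positivity) h
  have e2 : m2 + m4 = 2 * b := by
    have h : (2 * (p : ℤ) * q) * (m2 + m4) = (2 * (p : ℤ) * q) * (2 * b) := by
      linear_combination hb
    exact mul_left_cancel₀ (by positivity) h
  have e3 : r * m3 + m4 = q * c := by
    have h : (4 * (p : ℤ)) * (r * m3 + m4) = (4 * (p : ℤ)) * (q * c) := by
      linear_combination hc
    exact mul_left_cancel₀ (by positivity) h
  rw [latSys_N_cls, ← Int.cast_natCast, ← Int.cast_mul, ZMod.intCast_zmod_eq_zero_iff_dvd]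
  simp only
  have hcop : IsCoprime (4 : ℤ) (q : ℤ) := ⟨s, -1, by linarith⟩
  have d4 : (4 : ℤ) ∣ p * q * m1 ^ 2 + q * m2 ^ 2 + p * m3 ^ 2 + m4 ^ 2 := by
    refine ⟨p * s * m1 ^ 2 + s * m2 ^ 2 + p * a * (a - m1) + b * (b - m2), ?_⟩
    have hm3 : m3 = 2 * a - m1 := by linarith
    have hm4 : m4 = 2 * b - m2 := by linarith
    rw [hm3, hm4]
    linear_combination ((p : ℤ) * m1 ^ 2 + m2 ^ 2) * hs
  have dq : (q : ℤ) ∣ p * q * m1 ^ 2 + q * m2 ^ 2 + p * m3 ^ 2 + m4 ^ 2 := by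
    refine ⟨p * m1 ^ 2 + m2 ^ 2 + u * m3 ^ 2 + c * (m4 - r * m3), ?_⟩
    linear_combination m3 ^ 2 * hu + (m4 - r * m3) * e3
  obtain ⟨k, hk⟩ := hcop.mul_dvd d4 dq
  refine ⟨k, ?_⟩
  rw [hk]
  push_cast
  ring

end Lattice

open CongruenceSubgroup Matrix.SpecialLinearGroup ModularFormClass in
/-- **(B-θ)** for every odd prime `p` there is a modular form of weight `2` on `Γ₀(p)` with
constant term `1` and all higher `q`-expansion coefficients even integers -/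
theorem exists_theta_form (p : ℕ) [hpF : Fact p.Prime] (hp2 : p ≠ 2) :
    ∃ G : ModularForm (Subgroup.map (mapGL ℝ) (Gamma0 p)) 2,
      qCoeff ⇑G 0 = 1 ∧ ∀ n : ℕ, 1 ≤ n → ∃ m : ℤ, qCoeff ⇑G n = 2 * (m : ℂ) := by
  obtain ⟨q, r, hq4, hqr⟩ := exists_aux_qr p hp2
  haveI : NeZero p := ⟨hpF.out.ne_zero⟩
  haveI : NeZero q := ⟨by rintro rfl; simp at hq4⟩
  have hp0 : (p : ℂ) ≠ 0 := by exact_mod_cast hpF.out.ne_zero
  have hq0 : (q : ℂ) ≠ 0 := by
    have : q ≠ 0 := by rintro rfl; simp at hq4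
    exact_mod_cast this
  have hr : (-(latSys p q).κ)⁻¹ = (((-(4 * p * q : ℤ) : ℤ) : ℚ) : ℂ) := by
    rw [latSys_kappa]
    push_cast
    field_simp
  refine ⟨(latSys p q).thetaForm (latSys_J p q) (latH p q r) (latH_isotropic p q r hq4 hqr) p
    (latH_level p q r hq4 hqr) _ hr, ?_, ?_⟩
  · rw [ThetaSys.qCoeff_thetaForm, ThetaSys.repCount_zero _ _ (latH_isotropic p q r hq4 hqr)]
    norm_num
  · intro n hn
    obtain ⟨m, hm⟩ := ThetaSys.even_repCount _ _ (latH_isotropic p q r hq4 hqr) hn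
    refine ⟨m, ?_⟩
    rw [ThetaSys.qCoeff_thetaForm, hm]
    push_cast
    ring

end Fermat.Agent.Eis
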