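import Mathlib
import Fermat.Agent.Lib.Eis.Theta.Lattice
import Fermat.Agent.Lib.Eis.Level.EisForm
import Fermat.Agent.Lib.Eis.Level.CuspCrit
import Fermat.Agent.Lib.Eis.Defs
import Fermat.Prelude.Def_ModularCurve_ModularUnit

/-!
# P11 (S16), package B: the lower bound

There is a cusp form on `Γ₀(p)` with integral `q`-expansion congruent to the Eisenstein series
modulo `n_p = (p - 1)/gcd(p - 1, 12)`: `f = d' d (E - ((p - 1)/24) θ)`, `d = 12/gcd(p - 1, 12)`,
`d d' ≡ 1 mod n_p`.
-/

set_option autoImplicit false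

open scoped MatrixGroups ModularForm
open UpperHalfPlane ModularForm ModularFormClass CongruenceSubgroup Matrix.SpecialLinearGroup

namespace Fermat.Agent.Eis

variable (p : ℕ) [hpF : Fact p.Prime]

local notation "Γ₀'" => (Subgroup.map (mapGL ℝ) (Gamma0 p))

omit hpF in
theorem eisCong_one_zero : EisCong p 1 (0 : CuspForm Γ₀' 2) := by
  intro n
  refine ⟨0, ?_, one_dvd _⟩
  rw [qCoeff, FunLike.coe_zero, qExpansion_zero]
  simp

/-- **(B)** the lower bound -/
theorem exists_eisCong_eisensteinNumerator :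
    ∃ f : CuspForm Γ₀' 2, EisCong p (ModularCurve.eisensteinNumerator p) f := by
  have hp := hpF.out
  by_cases hp2 : p = 2
  · subst hp2
    have : ModularCurve.eisensteinNumerator 2 = 1 := by decide
    rw [this]
    exact ⟨0, eisCong_one_zero 2⟩
  obtain ⟨G, hG0, hGn⟩ := exists_theta_form p hp2
  choose mG hmG using hGn
  -- arithmetic of `n_p`
  set g := Nat.gcd (p - 1) 12 with hg
  have hg0 : 0 < g := Nat.gcd_pos_of_pos_right _ (by norm_num)
  set np := ModularCurve.eisensteinNumerator p with hnp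
  set d := 12 / g with hd
  have hnp' : np = (p - 1) / g := rfl
  have h12 : g * d = 12 := Nat.mul_div_cancel' (Nat.gcd_dvd_right _ _)
  have hp1 : g * np = p - 1 := Nat.mul_div_cancel' (Nat.gcd_dvd_left _ _)
  have hcop : Nat.Coprime d np := by
    rw [hd, hnp', Nat.coprime_comm]
    exact Nat.coprime_div_gcd_div_gcd hg0
  obtain ⟨u, v, huv⟩ : ∃ u v : ℤ, u * d + v * np = 1 := by
    have := Nat.Coprime.isCoprime hcop
    obtain ⟨u, v, h⟩ := this
    exact ⟨u, v, h⟩
  -- the cusp form
  set c : ℂ := ((p : ℂ) - 1) / 24 with hc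
  have h0 : qCoeff ⇑(eisForm p - c • G) 0 = 0 := by
    rw [qCoeff, FunLike.coe_sub, ModularForm.qExpansion_sub one_pos (one_mem_strictPeriods_gamma0 p),
      FunLike.coe_smul, ModularForm.qExpansion_smul one_pos (one_mem_strictPeriods_gamma0 p),
      map_sub, PowerSeries.coeff_smul]
    have e1 : (qExpansion 1 ⇑(eisForm p)).coeff 0 = c := qCoeff_eisForm_zero p
    have e2 : (qExpansion 1 ⇑G).coeff 0 = 1 := hG0
    rw [e1, e2, smul_eq_mul, mul_one, sub_self]
  obtain ⟨f₀, hf₀⟩ := exists_cuspForm_of_qCoeff_zero p (eisForm p - c • G) h0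
  have hcoef : ∀ (n : ℕ) (hn : 1 ≤ n),
      qCoeff ⇑f₀ n = (eisCoeff p n : ℂ) - c * (2 * (mG n hn : ℂ)) := by
    intro n hn
    rw [hf₀, qCoeff, FunLike.coe_sub,
      ModularForm.qExpansion_sub one_pos (one_mem_strictPeriods_gamma0 p),
      FunLike.coe_smul, ModularForm.qExpansion_smul one_pos (one_mem_strictPeriods_gamma0 p),
      map_sub, PowerSeries.coeff_smul, smul_eq_mul]
    have e1 : (qExpansion 1 ⇑(eisForm p)).coeff n = (eisCoeff p n : ℂ) := qCoeff_eisForm p hn
    have e2 : (qExpansion 1 ⇑G).coeff n = 2 * (mG n hn : ℂ) := hmG n hn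
    rw [e1, e2]
  refine ⟨(u * d : ℤ) • f₀, fun n => ?_⟩
  have hsm : qCoeff ⇑((u * d : ℤ) • f₀) n = ((u * d : ℤ) : ℂ) * qCoeff ⇑f₀ n := by
    have : ⇑((u * d : ℤ) • f₀) = (((u * d : ℤ) : ℂ)) • ⇑f₀ := by
      funext τ
      simp
    rw [qCoeff, this, ModularForm.qExpansion_smul one_pos (one_mem_strictPeriods_gamma0 p),
      PowerSeries.coeff_smul, smul_eq_mul]
    rfl
  rcases Nat.eq_zero_or_pos n with rfl | hn
  · refine ⟨0, ?_, by simp⟩
    rw [hsm, hf₀, h0]
    simp
  · refine ⟨u * d * eisCoeff p n - u * np * mG n hn, ?_, ?_⟩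
    · rw [hsm, hcoef n hn, hc]
      have hp1' : (g : ℂ) * np = (p : ℂ) - 1 := by
        have := congrArg (Nat.cast : ℕ → ℂ) hp1
        rw [Nat.cast_mul, Nat.cast_sub hp.one_le, Nat.cast_one] at this
        exact this
      have h12' : (g : ℂ) * d = 12 := by
        have := congrArg (Nat.cast : ℕ → ℂ) h12
        push_cast at this
        exact this
      have hg' : (g : ℂ) ≠ 0 := by exact_mod_cast hg0.ne'
      push_cast
      rw [← hp1']
      have : (24 : ℂ) = 2 * ((g : ℂ) * d) := by rw [h12']; norm_num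
      rw [this]
      have hd' : (d : ℂ) ≠ 0 := by
        intro h
        rw [h, mul_zero] at h12'
        norm_num at h12'
      field_simp
    · refine ⟨-(v * eisCoeff p n) - u * mG n hn, ?_⟩
      linear_combination (eisCoeff p n : ℤ) * huv

end Fermat.Agent.Eis
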