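/-
P11 / S16, package B: **abstract modularity**.  A finite family `θ_k : ℍ → ℂ` transforming under
`S` and `T` by a Weil-type representation (`θ_k ∣ T = χ(k) θ_k`, `θ_h ∣ S = κ ∑_k β(h,k) θ_k`) with
the Gauss-sum identity `κ ∑_h χ(h)^b β(h,k) = χ(k)^{b'}` (`b b' ≡ -1 mod p`) has
`θ_o ∈ M₂(Γ₀(p))` for the distinguished index `o` (`χ(o) = 1`, `β(o, ·) = 1`).

The proof is a right-induction over words in `S`, `T`, tracking the coset
`Γ₀(p) γ ∈ {Γ₀(p)} ∪ {Γ₀(p) S T^b}`; no generators of `Γ₀(p)` are needed.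
-/
import Mathlib
import Fermat.Agent.Lib.Eis.Level.Cosets

set_option autoImplicit false

open ModularForm Complex ModularGroup CongruenceSubgroup
open UpperHalfPlane hiding I
open Matrix.SpecialLinearGroup
open scoped MatrixGroups ModularForm Manifold

namespace Fermat.Agent.Eis

/-- in even weight, slashing by `-γ` is slashing by `γ` -/
theorem tm_slash_neg (f : ℍ → ℂ) (γ : SL(2, ℤ)) : f ∣[(2 : ℤ)] (-γ) = f ∣[(2 : ℤ)] γ := by
  funext z
  rw [SL_slash_apply, SL_slash_apply, ModularGroup.SL_neg_smul]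
  congr 1
  have : denom ((-γ : SL(2, ℤ))) z = -denom (γ : SL(2, ℤ)) z := by
    simp [denom]
    ring
  rw [this]
  have h2 : (-(2 : ℤ)) = -2 := rfl
  rw [zpow_neg, zpow_neg]
  congr 1
  norm_cast
  ring

theorem tm_S_inv : (S : SL(2, ℤ))⁻¹ = -S := by
  rw [ModularGroup.S_inv]

theorem tm_slash_S_inv (f : ℍ → ℂ) : f ∣[(2 : ℤ)] (S : SL(2, ℤ))⁻¹ = f ∣[(2 : ℤ)] S := by
  rw [tm_S_inv, tm_slash_neg]

theorem tm_S_mul_S : (S : SL(2, ℤ)) * S = -1 := by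
  ext i j
  fin_cases i <;> fin_cases j <;> simp [ModularGroup.S, Matrix.mul_apply, Fin.sum_univ_two]

theorem tm_slash_S_S (f : ℍ → ℂ) : (f ∣[(2 : ℤ)] S) ∣[(2 : ℤ)] S = f := by
  rw [← SlashAction.slash_mul, tm_S_mul_S, tm_slash_neg, SlashAction.slash_one]

/-! ### Membership computations in `Γ₀(p)` -/

section membership

variable (p : ℕ)

theorem tm_T_mem : (T : SL(2, ℤ)) ∈ Gamma0 p := by
  rw [Gamma0_mem]
  simp [ModularGroup.T]

theorem tm_neg_mem {γ : SL(2, ℤ)} (h : γ ∈ Gamma0 p) : -γ ∈ Gamma0 p := by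
  rw [Gamma0_mem] at h ⊢
  simp only [Matrix.SpecialLinearGroup.coe_neg, Matrix.neg_apply, Int.cast_neg, neg_eq_zero]
  exact h

theorem tm_egRep_mul_T (b : ℕ) : egRep b * T = egRep (b + 1) := by
  rw [egRep, egRep, mul_assoc]
  congr 1

theorem tm_egRep_zero : egRep 0 = S := by simp [egRep]

theorem tm_S_coe : ((S : SL(2, ℤ)) : Matrix (Fin 2) (Fin 2) ℤ) = !![0, -1; 1, 0] := by
  simp [ModularGroup.S]

theorem tm_egRep_mul_S_mem {b : ℕ} (hb : p ∣ b) : egRep b * S ∈ Gamma0 p := by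
  rw [Gamma0_mem]
  have h10 : ((egRep b * S : SL(2, ℤ)) 1 0 : ℤ) = (b : ℤ) := by
    rw [Matrix.SpecialLinearGroup.coe_mul, egRep_coe, tm_S_coe, Matrix.mul_apply, Fin.sum_univ_two]
    simp
  rw [h10]
  push_cast
  exact (ZMod.natCast_eq_zero_iff b p).mpr hb

theorem tm_egRep_mul_S_mul_inv_mem {b b' : ℕ} (h : (b * b' + 1) % p = 0) :
    egRep b * S * (egRep b')⁻¹ ∈ Gamma0 p := by
  rw [Gamma0_mem, egRep_inv]
  have h10 : ((egRep b * S * egRepInv (b' : ℤ) : SL(2, ℤ)) 1 0 : ℤ) = (b : ℤ) * b' + 1 := by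
    rw [Matrix.SpecialLinearGroup.coe_mul, Matrix.SpecialLinearGroup.coe_mul, egRep_coe, tm_S_coe,
      egRepInv_coe, Matrix.mul_apply, Fin.sum_univ_two, Matrix.mul_apply, Matrix.mul_apply,
      Fin.sum_univ_two, Fin.sum_univ_two]
    simp
  rw [h10]
  have : (((b : ℤ) * b' + 1 : ℤ) : ZMod p) = ((b * b' + 1 : ℕ) : ZMod p) := by push_cast; ring
  rw [this]
  exact (ZMod.natCast_eq_zero_iff _ p).mpr (Nat.dvd_of_mod_eq_zero h)

theorem tm_egRep_mul_inv_add_mem (b : ℕ) : egRep b * (egRep (b + p))⁻¹ ∈ Gamma0 p := by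
  rw [Gamma0_mem, egRep_inv]
  have h10 : ((egRep b * egRepInv ((b + p : ℕ) : ℤ) : SL(2, ℤ)) 1 0 : ℤ) = (p : ℤ) := by
    rw [Matrix.SpecialLinearGroup.coe_mul, egRep_coe, egRepInv_coe, Matrix.mul_apply,
      Fin.sum_univ_two]
    simp
  rw [h10]
  simp

end membership

/-! ### The hypotheses -/

/-- Weil-type transformation data for a finite family of functions on `ℍ` -/
structure TmHyp (p : ℕ) {K : Type} [Fintype K] (θ : K → ℍ → ℂ) (o : K) (χ : K → ℂ)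
    (β : K → K → ℂ) (κ : ℂ) : Prop where
  holo : ∀ k, MDifferentiable 𝓘(ℂ) 𝓘(ℂ) (θ k)
  bdd : ∀ k, IsBoundedAtImInfty (θ k)
  slash_T : ∀ k, θ k ∣[(2 : ℤ)] T = χ k • θ k
  slash_S : ∀ h, θ h ∣[(2 : ℤ)] S = κ • ∑ k, β h k • θ k
  chi_o : χ o = 1
  chi_pow : ∀ k, χ k ^ p = 1
  beta_o : ∀ k, β o k = 1
  gauss : ∀ b b' : ℕ, (b * b' + 1) % p = 0 → ∀ k, κ * ∑ h, χ h ^ b * β h k = χ k ^ b'

section main

variable {p : ℕ} {K : Type} [Fintype K] {θ : K → ℍ → ℂ} {o : K} {χ : K → ℂ}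
  {β : K → K → ℂ} {κ : ℂ}

/-- `φ_b = θ_o ∣ S T^b = κ ∑_k χ(k)^b θ_k` -/
noncomputable def tmPhi (θ : K → ℍ → ℂ) (χ : K → ℂ) (κ : ℂ) (b : ℕ) : ℍ → ℂ :=
  κ • ∑ k, χ k ^ b • θ k

theorem tm_smul_slash (c : ℂ) (f : ℍ → ℂ) (γ : SL(2, ℤ)) :
    (c • f) ∣[(2 : ℤ)] γ = c • (f ∣[(2 : ℤ)] γ) :=
  ModularForm.SL_smul_slash 2 γ f c

theorem tm_sum_smul_slash (c : K → ℂ) (f : K → ℍ → ℂ) (γ : SL(2, ℤ)) :
    (∑ k, c k • f k) ∣[(2 : ℤ)] γ = ∑ k, c k • (f k ∣[(2 : ℤ)] γ) := by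
  rw [SlashAction.sum_slash]
  exact Finset.sum_congr rfl fun k _ => tm_smul_slash (c k) (f k) γ

variable (H : TmHyp p θ o χ β κ)

include H

theorem TmHyp.chi_ne_zero [NeZero p] (k : K) : χ k ≠ 0 := by
  intro h
  have := H.chi_pow k
  rw [h, zero_pow (NeZero.ne p)] at this
  exact zero_ne_one this

theorem TmHyp.tmPhi_slash_T (b : ℕ) : tmPhi θ χ κ b ∣[(2 : ℤ)] T = tmPhi θ χ κ (b + 1) := by
  rw [tmPhi, tmPhi, tm_smul_slash, tm_sum_smul_slash]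
  congr 1
  refine Finset.sum_congr rfl fun k _ => ?_
  rw [H.slash_T, smul_smul, pow_succ]

theorem TmHyp.tmPhi_add (b : ℕ) : tmPhi θ χ κ (b + p) = tmPhi θ χ κ b := by
  rw [tmPhi, tmPhi]
  congr 1
  refine Finset.sum_congr rfl fun k _ => ?_
  rw [pow_add, H.chi_pow, mul_one]

theorem TmHyp.tmPhi_of_dvd {b : ℕ} (hb : p ∣ b) : tmPhi θ χ κ b = tmPhi θ χ κ 0 := by
  obtain ⟨m, rfl⟩ := hb
  rw [tmPhi, tmPhi]
  congr 1
  refine Finset.sum_congr rfl fun k _ => ?_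
  rw [pow_mul, H.chi_pow, one_pow, pow_zero]

theorem TmHyp.slash_S_o : θ o ∣[(2 : ℤ)] S = tmPhi θ χ κ 0 := by
  rw [H.slash_S, tmPhi]
  congr 1
  refine Finset.sum_congr rfl fun k _ => ?_
  rw [H.beta_o, pow_zero]

theorem TmHyp.tmPhi_zero_slash_S : tmPhi θ χ κ 0 ∣[(2 : ℤ)] S = θ o := by
  rw [← H.slash_S_o, tm_slash_S_S]

theorem TmHyp.slash_egRep (b : ℕ) : θ o ∣[(2 : ℤ)] egRep b = tmPhi θ χ κ b := by
  induction b with
  | zero => rw [tm_egRep_zero, H.slash_S_o]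
  | succ b ih => rw [← tm_egRep_mul_T, SlashAction.slash_mul, ih, H.tmPhi_slash_T]

theorem TmHyp.tmPhi_slash_S {b b' : ℕ} (h : (b * b' + 1) % p = 0) :
    tmPhi θ χ κ b ∣[(2 : ℤ)] S = tmPhi θ χ κ b' := by
  rw [tmPhi, tmPhi, tm_smul_slash, tm_sum_smul_slash]
  congr 1
  have h1 : ∀ k, χ k ^ b • (θ k ∣[(2 : ℤ)] S) = ∑ j, (χ k ^ b * κ * β k j) • θ j := by
    intro k
    rw [H.slash_S, smul_smul, Finset.smul_sum]
    refine Finset.sum_congr rfl fun j _ => ?_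
    rw [smul_smul]
  rw [Finset.sum_congr rfl fun k _ => h1 k, Finset.sum_comm]
  refine Finset.sum_congr rfl fun j _ => ?_
  rw [← Finset.sum_smul]
  congr 1
  rw [← H.gauss b b' h j, Finset.mul_sum]
  refine Finset.sum_congr rfl fun k _ => ?_
  ring

theorem TmHyp.slash_T_o : θ o ∣[(2 : ℤ)] T = θ o := by
  rw [H.slash_T, H.chi_o, one_smul]

theorem TmHyp.slash_T_inv_o : θ o ∣[(2 : ℤ)] (T : SL(2, ℤ))⁻¹ = θ o := by
  conv_lhs => rw [← H.slash_T_o]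
  rw [← SlashAction.slash_mul, mul_inv_cancel, SlashAction.slash_one]

theorem TmHyp.tmPhi_succ_slash_T_inv (b : ℕ) :
    tmPhi θ χ κ (b + 1) ∣[(2 : ℤ)] (T : SL(2, ℤ))⁻¹ = tmPhi θ χ κ b := by
  rw [← H.tmPhi_slash_T, ← SlashAction.slash_mul, mul_inv_cancel, SlashAction.slash_one]

theorem TmHyp.tmPhi_isBoundedAtImInfty (b : ℕ) : IsBoundedAtImInfty (tmPhi θ χ κ b) := by
  rw [tmPhi]
  have h1 : IsBoundedAtImInfty (∑ k, χ k ^ b • θ k) := by
    have : ∀ s : Finset K, IsBoundedAtImInfty (∑ k ∈ s, χ k ^ b • θ k) := by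
      classical
      intro s
      induction s using Finset.induction_on with
      | empty =>
        simp only [Finset.sum_empty]
        exact Filter.const_boundedAtFilter _ (0 : ℂ)
      | insert a s ha ih =>
        rw [Finset.sum_insert ha]
        exact ((H.bdd a).const_smul_left (χ a ^ b)).add ih
    exact this _
  exact h1.const_smul_left κ

end main

/-! ### The induction over words in `S`, `T` -/

section induction

variable {p : ℕ} [hpF : Fact p.Prime] {K : Type} [Fintype K] {θ : K → ℍ → ℂ} {o : K} {χ : K → ℂ}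
  {β : K → K → ℂ} {κ : ℂ}

/-- the inductive predicate: `γ` lies in the coset of `1` or of `S T^b`, and `θ_o ∣ γ` is the
corresponding function -/
def TmP (p : ℕ) (θ : K → ℍ → ℂ) (o : K) (χ : K → ℂ) (κ : ℂ) (γ : SL(2, ℤ)) : Prop :=
  (γ ∈ Gamma0 p ∧ θ o ∣[(2 : ℤ)] γ = θ o) ∨
    ∃ b : ℕ, γ * (egRep b)⁻¹ ∈ Gamma0 p ∧ θ o ∣[(2 : ℤ)] γ = tmPhi θ χ κ b

omit hpF in
theorem tmP_neg {γ : SL(2, ℤ)} (h : TmP p θ o χ κ γ) : TmP p θ o χ κ (-γ) := by
  rcases h with ⟨h1, h2⟩ | ⟨b, h1, h2⟩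
  · exact Or.inl ⟨tm_neg_mem p h1, by rw [tm_slash_neg, h2]⟩
  · refine Or.inr ⟨b, ?_, by rw [tm_slash_neg, h2]⟩
    rw [neg_mul]
    exact tm_neg_mem p h1

theorem tm_shift_mem (p : ℕ) {γ : SL(2, ℤ)} {b : ℕ} (h1 : γ * (egRep b)⁻¹ ∈ Gamma0 p) :
    γ * (egRep (b + p))⁻¹ ∈ Gamma0 p := by
  have : γ * (egRep (b + p))⁻¹ = (γ * (egRep b)⁻¹) * (egRep b * (egRep (b + p))⁻¹) := by group
  rw [this]
  exact mul_mem h1 (tm_egRep_mul_inv_add_mem p b)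

omit hpF in
theorem tmP_one : TmP p θ o χ κ 1 :=
  Or.inl ⟨one_mem _, SlashAction.slash_one _ _⟩

variable (H : TmHyp p θ o χ β κ)

include H

omit hpF in
theorem TmHyp.tmP_mul_T {γ : SL(2, ℤ)} (h : TmP p θ o χ κ γ) : TmP p θ o χ κ (γ * T) := by
  rcases h with ⟨h1, h2⟩ | ⟨b, h1, h2⟩
  · exact Or.inl ⟨mul_mem h1 (tm_T_mem p), by rw [SlashAction.slash_mul, h2, H.slash_T_o]⟩
  · refine Or.inr ⟨b + 1, ?_, by rw [SlashAction.slash_mul, h2, H.tmPhi_slash_T]⟩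
    rw [← tm_egRep_mul_T]
    have : γ * T * (egRep b * T)⁻¹ = γ * (egRep b)⁻¹ := by group
    rw [this]
    exact h1

theorem TmHyp.tmP_mul_T_inv {γ : SL(2, ℤ)} (h : TmP p θ o χ κ γ) :
    TmP p θ o χ κ (γ * (T : SL(2, ℤ))⁻¹) := by
  rcases h with ⟨h1, h2⟩ | ⟨b, h1, h2⟩
  · exact Or.inl ⟨mul_mem h1 (inv_mem (tm_T_mem p)),
      by rw [SlashAction.slash_mul, h2, H.slash_T_inv_o]⟩
  · -- make `b` positive
    obtain ⟨c, hc1, hc2⟩ : ∃ c : ℕ, γ * (egRep (c + 1))⁻¹ ∈ Gamma0 p ∧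
        θ o ∣[(2 : ℤ)] γ = tmPhi θ χ κ (c + 1) := by
      have hp1 : 1 ≤ p := hpF.out.one_le
      refine ⟨b + p - 1, ?_, ?_⟩
      · rw [show b + p - 1 + 1 = b + p by omega]
        exact tm_shift_mem p h1
      · rw [show b + p - 1 + 1 = b + p by omega, H.tmPhi_add, h2]
    refine Or.inr ⟨c, ?_, by rw [SlashAction.slash_mul, hc2, H.tmPhi_succ_slash_T_inv]⟩
    rw [← tm_egRep_mul_T] at hc1
    have : γ * (T : SL(2, ℤ))⁻¹ * (egRep c)⁻¹ = γ * (egRep c * T)⁻¹ := by group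
    rw [this]
    exact hc1

theorem TmHyp.tmP_mul_S {γ : SL(2, ℤ)} (h : TmP p θ o χ κ γ) : TmP p θ o χ κ (γ * S) := by
  rcases h with ⟨h1, h2⟩ | ⟨b, h1, h2⟩
  · refine Or.inr ⟨0, ?_, by rw [SlashAction.slash_mul, h2, H.slash_S_o]⟩
    rw [tm_egRep_zero, mul_inv_cancel_right]
    exact h1
  · by_cases hb : p ∣ b
    · refine Or.inl ⟨?_, ?_⟩
      · have : γ * S = (γ * (egRep b)⁻¹) * (egRep b * S) := by group
        rw [this]
        exact mul_mem h1 (tm_egRep_mul_S_mem p hb)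
      · rw [SlashAction.slash_mul, h2, H.tmPhi_of_dvd hb, H.tmPhi_zero_slash_S]
    · -- choose `b'` with `b b' ≡ -1`
      obtain ⟨b', hb'⟩ : ∃ b' : ℕ, (b * b' + 1) % p = 0 := by
        refine ⟨(-((b : ZMod p))⁻¹).val, ?_⟩
        have hb0 : (b : ZMod p) ≠ 0 := by
          intro h0
          exact hb ((ZMod.natCast_eq_zero_iff b p).mp h0)
        have : ((b * (-((b : ZMod p))⁻¹).val + 1 : ℕ) : ZMod p) = 0 := by
          push_cast
          rw [ZMod.natCast_zmod_val, mul_neg, mul_inv_cancel₀ hb0]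
          ring
        exact Nat.mod_eq_zero_of_dvd ((ZMod.natCast_eq_zero_iff _ p).mp this)
      refine Or.inr ⟨b', ?_, by rw [SlashAction.slash_mul, h2, H.tmPhi_slash_S hb']⟩
      have : γ * S * (egRep b')⁻¹ = (γ * (egRep b)⁻¹) * (egRep b * S * (egRep b')⁻¹) := by group
      rw [this]
      exact mul_mem h1 (tm_egRep_mul_S_mul_inv_mem p hb')

theorem TmHyp.tmP_mul_S_inv {γ : SL(2, ℤ)} (h : TmP p θ o χ κ γ) :
    TmP p θ o χ κ (γ * (S : SL(2, ℤ))⁻¹) := by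
  rw [tm_S_inv, mul_neg]
  exact tmP_neg (H.tmP_mul_S h)

theorem TmHyp.tmP_all (γ : SL(2, ℤ)) : TmP p θ o χ κ γ := by
  have hγ : γ ∈ Subgroup.closure ({S, T} : Set SL(2, ℤ)) := by
    simp [SpecialLinearGroup.SL2Z_generators]
  induction hγ using Subgroup.closure_induction_right with
  | one => exact tmP_one
  | mul_right x hx y hy ih =>
    simp only [Set.mem_insert_iff, Set.mem_singleton_iff] at hy
    rcases hy with rfl | rfl
    · exact H.tmP_mul_S ih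
    · exact H.tmP_mul_T ih
  | mul_inv_cancel x hx y hy ih =>
    simp only [Set.mem_insert_iff, Set.mem_singleton_iff] at hy
    rcases hy with rfl | rfl
    · exact H.tmP_mul_S_inv ih
    · exact H.tmP_mul_T_inv ih

/-- `θ_o` is invariant under `Γ₀(p)` -/
theorem TmHyp.slash_gamma0 {γ : SL(2, ℤ)} (hγ : γ ∈ Gamma0 p) : θ o ∣[(2 : ℤ)] γ = θ o := by
  rcases H.tmP_all γ with ⟨_, h2⟩ | ⟨b, h1, _⟩
  · exact h2
  · exfalso
    have : egRep b ∈ Gamma0 p := by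
      have h := mul_mem (inv_mem h1) hγ
      have e : (γ * (egRep b)⁻¹)⁻¹ * γ = egRep b := by group
      rwa [e] at h
    exact egRep_not_mem p b this

/-- every `θ_o ∣ γ` is bounded at `i∞` -/
theorem TmHyp.isBoundedAtImInfty_slash (γ : SL(2, ℤ)) :
    IsBoundedAtImInfty (θ o ∣[(2 : ℤ)] γ) := by
  rcases H.tmP_all γ with ⟨_, h2⟩ | ⟨b, _, h2⟩
  · rw [h2]; exact H.bdd o
  · rw [h2]; exact H.tmPhi_isBoundedAtImInfty b

local notation "Γ₀'" => (Subgroup.map (mapGL ℝ) (Gamma0 p))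

/-- **Abstract modularity**: `θ_o ∈ M₂(Γ₀(p))` -/
noncomputable def TmHyp.form : ModularForm Γ₀' 2 where
  toFun := θ o
  slash_action_eq' x hx := by
    obtain ⟨γ, hγ, rfl⟩ := hx
    have := H.slash_gamma0 hγ
    rw [SL_slash] at this
    exact this
  holo' := H.holo o
  bdd_at_cusps' {c} hc := by
    have hc' : IsCusp c 𝒮ℒ := (Subgroup.IsArithmetic.isCusp_iff_isCusp_SL2Z Γ₀').mp hc
    rw [OnePoint.isBoundedAt_iff_forall_SL2Z hc']
    intro γ _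
    exact H.isBoundedAtImInfty_slash γ

theorem TmHyp.coe_form : ⇑(H.form) = θ o := rfl

end induction

/-- **Abstract modularity**, existence form -/
theorem tm_exists_modularForm (p : ℕ) [Fact p.Prime] {K : Type} [Fintype K] (θ : K → ℍ → ℂ) (o : K)
    (χ : K → ℂ) (β : K → K → ℂ) (κ : ℂ) (H : TmHyp p θ o χ β κ) :
    ∃ G : ModularForm (Subgroup.map (mapGL ℝ) (Gamma0 p)) 2, ⇑G = θ o :=
  ⟨H.form, rfl⟩

end Fermat.Agent.Eis
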