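/-
P11 / S16, package B-an (diagonal theta toolkit), part 1: the one-variable theta series with
characteristic `tdTheta a c τ = ∑_{n ∈ ℤ} e((2an + c)² τ / (4a)) = ∑_{x ∈ ℤ + c/(2a)} e(a x² τ)`:
relation with Mathlib's `jacobiTheta₂`, periodicity in `c`, the transformation under `τ ↦ τ + 1`.
-/
import Mathlib

set_option autoImplicit false

open Complex Real

namespace Fermat.Agent.Eis

/-- the exponent `(2an + c)² / (4a)` -/
noncomputable def tdExp (a : ℕ) (c n : ℤ) : ℂ := ((2 * (a : ℤ) * n + c : ℤ) : ℂ) ^ 2 / (4 * (a : ℂ))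

/-- the `n`-th term of the one-variable theta series with characteristic `c/(2a)` -/
noncomputable def tdTerm (a : ℕ) (c : ℤ) (τ : ℂ) (n : ℤ) : ℂ := cexp (2 * π * I * tdExp a c n * τ)

/-- `∑_{n ∈ ℤ} e((2an + c)² τ / (4a))` -/
noncomputable def tdTheta (a : ℕ) (c : ℤ) (τ : ℂ) : ℂ := ∑' n : ℤ, tdTerm a c τ n

variable {a : ℕ} (ha : 0 < a) (c : ℤ)

include ha in
theorem tdExp_eq (n : ℤ) :
    tdExp a c n = (a : ℂ) * (n : ℂ) ^ 2 + (n : ℂ) * (c : ℂ) + (c : ℂ) ^ 2 / (4 * (a : ℂ)) := by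
  have : (a : ℂ) ≠ 0 := by exact_mod_cast ha.ne'
  rw [tdExp]
  push_cast
  field_simp
  ring

include ha in
theorem tdTerm_eq (τ : ℂ) (n : ℤ) :
    tdTerm a c τ n = cexp (π * I * (c : ℂ) ^ 2 * τ / (2 * (a : ℂ))) *
      jacobiTheta₂_term n ((c : ℂ) * τ) (2 * (a : ℂ) * τ) := by
  have : (a : ℂ) ≠ 0 := by exact_mod_cast ha.ne'
  rw [tdTerm, jacobiTheta₂_term, ← Complex.exp_add, tdExp_eq ha]
  congr 1
  field_simp
  ring

include ha in
theorem td_im_two_mul_pos {τ : ℂ} (hτ : 0 < τ.im) : 0 < (2 * (a : ℂ) * τ).im := by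
  have : (2 * (a : ℂ) * τ).im = 2 * (a : ℝ) * τ.im := by
    rw [show (2 * (a : ℂ)) = ((2 * (a : ℝ) : ℝ) : ℂ) by push_cast; ring, Complex.im_ofReal_mul]
  rw [this]
  have : (0 : ℝ) < a := by exact_mod_cast ha
  positivity

include ha in
theorem summable_tdTerm {τ : ℂ} (hτ : 0 < τ.im) : Summable (tdTerm a c τ) := by
  have h := (summable_jacobiTheta₂_term_iff ((c : ℂ) * τ) (2 * (a : ℂ) * τ)).mpr
    (td_im_two_mul_pos ha hτ)
  have := h.mul_left (cexp (π * I * (c : ℂ) ^ 2 * τ / (2 * (a : ℂ))))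
  refine this.congr fun n => ?_
  rw [tdTerm_eq ha]

include ha in
theorem hasSum_tdTerm {τ : ℂ} (hτ : 0 < τ.im) : HasSum (tdTerm a c τ) (tdTheta a c τ) :=
  (summable_tdTerm ha c hτ).hasSum

include ha in
theorem tdTheta_eq (τ : ℂ) :
    tdTheta a c τ = cexp (π * I * (c : ℂ) ^ 2 * τ / (2 * (a : ℂ))) *
      jacobiTheta₂ ((c : ℂ) * τ) (2 * (a : ℂ) * τ) := by
  rw [tdTheta, jacobiTheta₂, ← tsum_mul_left]
  exact tsum_congr fun n => tdTerm_eq ha c τ n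

/-! ### Periodicity in the characteristic -/

theorem tdTerm_add_period (τ : ℂ) (n : ℤ) :
    tdTerm a (c + 2 * (a : ℤ)) τ n = tdTerm a c τ (n + 1) := by
  rw [tdTerm, tdTerm, tdExp, tdExp]
  congr 5
  ring_nf

theorem tdTheta_add_period (τ : ℂ) : tdTheta a (c + 2 * (a : ℤ)) τ = tdTheta a c τ := by
  rw [tdTheta, tdTheta]
  rw [← (Equiv.addRight (1 : ℤ)).tsum_eq (tdTerm a c τ)]
  exact tsum_congr fun n => tdTerm_add_period c τ n

theorem tdTheta_add_mul_period (τ : ℂ) (m : ℤ) :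
    tdTheta a (c + m * (2 * (a : ℤ))) τ = tdTheta a c τ := by
  induction m using Int.induction_on with
  | zero => simp
  | succ k ih =>
    rw [show c + ((k : ℤ) + 1) * (2 * (a : ℤ)) = (c + (k : ℤ) * (2 * (a : ℤ))) + 2 * (a : ℤ) by ring,
      tdTheta_add_period, ih]
  | pred k ih =>
    rw [← tdTheta_add_period (c + (-(k : ℤ) - 1) * (2 * (a : ℤ)))]
    rw [show c + (-(k : ℤ) - 1) * (2 * (a : ℤ)) + 2 * (a : ℤ) = c + (-(k : ℤ)) * (2 * (a : ℤ)) by ring]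
    exact ih

theorem tdTheta_congr {c c' : ℤ} (h : (2 * (a : ℤ)) ∣ c' - c) (τ : ℂ) :
    tdTheta a c' τ = tdTheta a c τ := by
  obtain ⟨m, hm⟩ := h
  have : c' = c + m * (2 * (a : ℤ)) := by linarith
  rw [this, tdTheta_add_mul_period]

theorem tdTerm_neg (τ : ℂ) (n : ℤ) : tdTerm a (-c) τ n = tdTerm a c τ (-n) := by
  rw [tdTerm, tdTerm, tdExp, tdExp]
  congr 3
  push_cast
  ring

theorem tdTheta_neg (τ : ℂ) : tdTheta a (-c) τ = tdTheta a c τ := by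
  rw [tdTheta, tdTheta, ← (Equiv.neg ℤ).tsum_eq (tdTerm a c τ)]
  exact tsum_congr fun n => tdTerm_neg c τ n

/-! ### `τ ↦ τ + 1` -/

include ha in
theorem tdTerm_add_one (τ : ℂ) (n : ℤ) :
    tdTerm a c (τ + 1) n = cexp (2 * π * I * ((c : ℂ) ^ 2 / (4 * (a : ℂ)))) * tdTerm a c τ n := by
  rw [tdTerm, tdTerm, ← Complex.exp_add, tdExp_eq ha]
  have h1 : 2 * π * I * ((a : ℂ) * (n : ℂ) ^ 2 + (n : ℂ) * (c : ℂ) + (c : ℂ) ^ 2 / (4 * (a : ℂ))) *
      (τ + 1) = (2 * π * I * ((c : ℂ) ^ 2 / (4 * (a : ℂ))) +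
        2 * π * I * ((a : ℂ) * (n : ℂ) ^ 2 + (n : ℂ) * (c : ℂ) + (c : ℂ) ^ 2 / (4 * (a : ℂ))) * τ) +
        ((a : ℤ) * n ^ 2 + n * c : ℤ) * (2 * π * I) := by
    push_cast
    ring
  rw [h1, Complex.exp_add, Complex.exp_int_mul_two_pi_mul_I, mul_one]

include ha in
theorem tdTheta_add_one (τ : ℂ) :
    tdTheta a c (τ + 1) = cexp (2 * π * I * ((c : ℂ) ^ 2 / (4 * (a : ℂ)))) * tdTheta a c τ := by
  rw [tdTheta, tdTheta, ← tsum_mul_left]
  exact tsum_congr fun n => tdTerm_add_one ha c τ n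

end Fermat.Agent.Eis
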