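/-
P11 / S16, package B-an (diagonal theta toolkit), part 3: analytic properties of the one-variable
theta series with characteristic: holomorphy on `ℍ` and boundedness at `i∞`.
-/
import Mathlib
import Fermat.Agent.Lib.Eis.Theta.DiagOne

set_option autoImplicit false

open Complex Real
open UpperHalfPlane hiding I
open scoped Manifold

namespace Fermat.Agent.Eis

variable {a : ℕ} (ha : 0 < a) (c : ℤ)

include ha in
theorem tdTheta_differentiableAt {τ : ℂ} (hτ : 0 < τ.im) : DifferentiableAt ℂ (tdTheta a c) τ := by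
  have hfun : tdTheta a c = fun τ : ℂ => cexp (π * I * (c : ℂ) ^ 2 * τ / (2 * (a : ℂ))) *
      (fun p : ℂ × ℂ => jacobiTheta₂ p.1 p.2) ((c : ℂ) * τ, 2 * (a : ℂ) * τ) := by
    funext τ
    exact tdTheta_eq ha c τ
  rw [hfun]
  have h1 : DifferentiableAt ℂ (fun τ : ℂ => cexp (π * I * (c : ℂ) ^ 2 * τ / (2 * (a : ℂ)))) τ := by
    fun_prop
  have h2 : DifferentiableAt ℂ (fun p : ℂ × ℂ => jacobiTheta₂ p.1 p.2)
      ((c : ℂ) * τ, 2 * (a : ℂ) * τ) :=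
    (hasFDerivAt_jacobiTheta₂ ((c : ℂ) * τ) (td_im_two_mul_pos ha hτ)).differentiableAt
  have h3 : DifferentiableAt ℂ (fun τ : ℂ => ((c : ℂ) * τ, 2 * (a : ℂ) * τ)) τ := by
    fun_prop
  have h4 : DifferentiableAt ℂ (fun τ : ℂ => (fun p : ℂ × ℂ => jacobiTheta₂ p.1 p.2)
      ((c : ℂ) * τ, 2 * (a : ℂ) * τ)) τ :=
    (h2.comp τ h3 : DifferentiableAt ℂ ((fun p : ℂ × ℂ => jacobiTheta₂ p.1 p.2) ∘
      fun τ : ℂ => ((c : ℂ) * τ, 2 * (a : ℂ) * τ)) τ)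
  exact h1.mul h4

include ha in
theorem tdTheta_mdifferentiable :
    MDifferentiable 𝓘(ℂ) 𝓘(ℂ) (fun z : ℍ => tdTheta a c (z : ℂ)) := by
  rw [UpperHalfPlane.mdifferentiable_iff]
  have h : DifferentiableOn ℂ (tdTheta a c) {z : ℂ | 0 < z.im} := fun z hz =>
    (tdTheta_differentiableAt ha c hz).differentiableWithinAt
  refine h.congr ?_
  intro z hz
  simp [ofComplex_apply_of_im_pos hz]

/-- the exponent as a real number -/
noncomputable def tdExpR (a : ℕ) (c n : ℤ) : ℝ := ((2 * (a : ℤ) * n + c : ℤ) : ℝ) ^ 2 / (4 * (a : ℝ))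

theorem tdExp_eq_ofReal (n : ℤ) : tdExp a c n = ((tdExpR a c n : ℝ) : ℂ) := by
  rw [tdExp, tdExpR]
  push_cast
  ring

theorem tdExpR_nonneg (n : ℤ) : 0 ≤ tdExpR a c n := by
  rw [tdExpR]
  positivity

theorem norm_tdTerm (τ : ℂ) (n : ℤ) :
    ‖tdTerm a c τ n‖ = Real.exp (-(2 * π * tdExpR a c n * τ.im)) := by
  rw [tdTerm, Complex.norm_exp, tdExp_eq_ofReal]
  congr 1
  have : 2 * (π : ℂ) * I * ((tdExpR a c n : ℝ) : ℂ) * τ =
      ((2 * π * tdExpR a c n : ℝ) : ℂ) * (I * τ) := by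
    push_cast; ring
  rw [this, Complex.re_ofReal_mul]
  simp

theorem norm_tdTerm_le {τ : ℂ} (hτ : 1 ≤ τ.im) (n : ℤ) :
    ‖tdTerm a c τ n‖ ≤ ‖tdTerm a c I n‖ := by
  rw [norm_tdTerm, norm_tdTerm, Complex.I_im, mul_one]
  apply Real.exp_le_exp.mpr
  have h1 : 0 ≤ 2 * π * tdExpR a c n := by
    have := tdExpR_nonneg (a := a) c n
    positivity
  nlinarith

include ha in
theorem norm_tdTheta_le {τ : ℂ} (hτ : 1 ≤ τ.im) :
    ‖tdTheta a c τ‖ ≤ ∑' n : ℤ, ‖tdTerm a c I n‖ := by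
  have hτ0 : 0 < τ.im := by linarith
  have hs1 : Summable (fun n => ‖tdTerm a c τ n‖) := (summable_tdTerm ha c hτ0).norm
  have hs2 : Summable (fun n => ‖tdTerm a c I n‖) :=
    (summable_tdTerm ha c (by simp : 0 < Complex.I.im)).norm
  calc ‖tdTheta a c τ‖ ≤ ∑' n : ℤ, ‖tdTerm a c τ n‖ := norm_tsum_le_tsum_norm hs1
    _ ≤ ∑' n : ℤ, ‖tdTerm a c I n‖ := hs1.tsum_le_tsum (norm_tdTerm_le c hτ) hs2

include ha in
theorem tdTheta_isBoundedAtImInfty : IsBoundedAtImInfty (fun z : ℍ => tdTheta a c (z : ℂ)) := by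
  rw [isBoundedAtImInfty_iff]
  exact ⟨∑' n : ℤ, ‖tdTerm a c I n‖, 1, fun z hz => norm_tdTheta_le ha c hz⟩

end Fermat.Agent.Eis
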