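/-
P11 / S16, package B-an (diagonal theta toolkit), part 2: the inversion formula
`tdTheta a c (-1/τ) = (-iτ)^{1/2} / √(2a) · ∑_{d mod 2a} e(-cd/(2a)) tdTheta a d τ`.
-/
import Mathlib
import Fermat.Agent.Lib.Eis.Theta.DiagOne

set_option autoImplicit false

open Complex Real

namespace Fermat.Agent.Eis

/-- the square root factor `(-iτ)^{1/2}` (principal branch) -/
noncomputable def tdSqrt (τ : ℂ) : ℂ := (-I * τ) ^ (1 / 2 : ℂ)

theorem tdSqrt_sq (τ : ℂ) : tdSqrt τ ^ 2 = -I * τ := by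
  have h := Complex.cpow_nat_inv_pow (-I * τ) (n := 2) (by norm_num)
  have e : (1 / 2 : ℂ) = (((2 : ℕ) : ℂ))⁻¹ := by norm_num
  rw [tdSqrt, e]
  exact h

theorem td_neg_I_mul_re (τ : ℂ) : (-I * τ).re = τ.im := by
  simp

theorem td_cpow_half_re_pos {w : ℂ} (hw : 0 < w.re) : 0 < (w ^ (1 / 2 : ℂ)).re := by
  have e : (1 / 2 : ℂ) = (2⁻¹ : ℂ) := by norm_num
  rw [e, Complex.cpow_inv_two_re]
  apply Real.sqrt_pos.mpr
  have : 0 ≤ ‖w‖ := norm_nonneg w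
  linarith

theorem tdSqrt_re_pos {τ : ℂ} (hτ : 0 < τ.im) : 0 < (tdSqrt τ).re := by
  apply td_cpow_half_re_pos
  rw [td_neg_I_mul_re]
  exact hτ

theorem td_eq_of_sq_eq {x y : ℂ} (h : x ^ 2 = y ^ 2) (hx : 0 < x.re) (hy : 0 < y.re) : x = y := by
  rcases sq_eq_sq_iff_eq_or_eq_neg.mp h with h | h
  · exact h
  · exfalso
    rw [h, Complex.neg_re] at hx
    linarith

theorem td_inv_re_pos {w : ℂ} (hw : 0 < w.re) : 0 < (1 / w).re := by
  rw [one_div, Complex.inv_re]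
  apply div_pos hw
  apply Complex.normSq_pos.mpr
  intro h
  rw [h] at hw
  simp at hw

variable {a : ℕ} (ha : 0 < a)

include ha in
/-- the automorphy factor produced by Mathlib's functional equation, rewritten -/
theorem td_factor_eq {τ : ℂ} (hτ : 0 < τ.im) :
    1 / (-I * (2 * (a : ℂ) * (-1 / τ))) ^ (1 / 2 : ℂ) = tdSqrt τ / (Real.sqrt (2 * a) : ℂ) := by
  have haR : (0 : ℝ) < 2 * a := by
    have : (0 : ℝ) < a := by exact_mod_cast ha
    positivity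
  have haC : (a : ℂ) ≠ 0 := by exact_mod_cast ha.ne'
  have hτ0 : τ ≠ 0 := by
    rintro rfl
    simp at hτ
  have hsq : ((Real.sqrt (2 * a) : ℝ) : ℂ) ^ 2 = 2 * (a : ℂ) := by
    rw [← Complex.ofReal_pow, Real.sq_sqrt haR.le]
    push_cast
    ring
  have hspos : 0 < Real.sqrt (2 * a) := Real.sqrt_pos.mpr haR
  set w : ℂ := -I * (2 * (a : ℂ) * (-1 / τ)) with hw
  have hwre : 0 < w.re := by
    have : w = ((2 * a : ℝ) : ℂ) * (I / τ) := by
      rw [hw]; push_cast; field_simp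
    rw [this, Complex.re_ofReal_mul]
    apply mul_pos haR
    rw [Complex.div_re]
    simp only [Complex.I_re, Complex.I_im, zero_mul, one_mul, zero_div, zero_add]
    apply div_pos hτ
    exact Complex.normSq_pos.mpr hτ0
  apply td_eq_of_sq_eq
  · rw [div_pow, div_pow, one_pow, tdSqrt_sq, hsq]
    have h2 : (w ^ (1 / 2 : ℂ)) ^ 2 = w := by
      have h := Complex.cpow_nat_inv_pow w (n := 2) (by norm_num)
      have e : (1 / 2 : ℂ) = (((2 : ℕ) : ℂ))⁻¹ := by norm_num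
      rw [e]
      exact h
    rw [h2, hw]
    field_simp
    rw [Complex.I_sq]
    ring
  · exact td_inv_re_pos (td_cpow_half_re_pos hwre)
  · rw [Complex.div_ofReal_re]
    exact div_pos (tdSqrt_re_pos hτ) hspos

include ha in
/-- inversion, first form: in terms of `jacobiTheta₂` -/
theorem tdTheta_inv_eq_jacobiTheta₂ (c : ℤ) {τ : ℂ} (hτ : 0 < τ.im) :
    tdTheta a c (-1 / τ) = tdSqrt τ / (Real.sqrt (2 * a) : ℂ) *
      jacobiTheta₂ ((c : ℂ) / (2 * (a : ℂ))) (τ / (2 * (a : ℂ))) := by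
  have haC : (a : ℂ) ≠ 0 := by exact_mod_cast ha.ne'
  have hτ0 : τ ≠ 0 := by
    rintro rfl
    simp at hτ
  rw [tdTheta_eq ha, jacobiTheta₂_functional_equation, td_factor_eq ha hτ]
  have e1 : (c : ℂ) * (-1 / τ) / (2 * (a : ℂ) * (-1 / τ)) = (c : ℂ) / (2 * (a : ℂ)) := by
    field_simp
  have e2 : -1 / (2 * (a : ℂ) * (-1 / τ)) = τ / (2 * (a : ℂ)) := by
    field_simp
  rw [e1, e2]
  have e3 : cexp (π * I * (c : ℂ) ^ 2 * (-1 / τ) / (2 * (a : ℂ))) *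
      cexp (-π * I * ((c : ℂ) * (-1 / τ)) ^ 2 / (2 * (a : ℂ) * (-1 / τ))) = 1 := by
    rw [← Complex.exp_add]
    convert Complex.exp_zero using 2
    field_simp
    ring
  calc cexp (π * I * (c : ℂ) ^ 2 * (-1 / τ) / (2 * (a : ℂ))) *
        (tdSqrt τ / (Real.sqrt (2 * a) : ℂ) *
          cexp (-π * I * ((c : ℂ) * (-1 / τ)) ^ 2 / (2 * (a : ℂ) * (-1 / τ))) *
          jacobiTheta₂ ((c : ℂ) / (2 * (a : ℂ))) (τ / (2 * (a : ℂ))))
      = (cexp (π * I * (c : ℂ) ^ 2 * (-1 / τ) / (2 * (a : ℂ))) *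
          cexp (-π * I * ((c : ℂ) * (-1 / τ)) ^ 2 / (2 * (a : ℂ) * (-1 / τ)))) *
          (tdSqrt τ / (Real.sqrt (2 * a) : ℂ) *
          jacobiTheta₂ ((c : ℂ) / (2 * (a : ℂ))) (τ / (2 * (a : ℂ)))) := by ring
    _ = _ := by rw [e3, one_mul]

include ha in
theorem td_jacobiTheta₂_term_split (c : ℤ) (τ : ℂ) (q : ℤ) (r : ℕ) :
    jacobiTheta₂_term (q * ((2 * a : ℕ) : ℤ) + (r : ℤ)) (-(c : ℂ) / (2 * (a : ℂ))) (τ / (2 * (a : ℂ))) =
      cexp (-2 * π * I * ((c : ℂ) * (r : ℂ) / (2 * (a : ℂ)))) * tdTerm a (r : ℤ) τ q := by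
  have haC : (a : ℂ) ≠ 0 := by exact_mod_cast ha.ne'
  rw [jacobiTheta₂_term, tdTerm, tdExp, ← Complex.exp_add]
  have h1 : 2 * π * I * ((q * ((2 * a : ℕ) : ℤ) + (r : ℤ) : ℤ) : ℂ) * (-(c : ℂ) / (2 * (a : ℂ))) +
      π * I * ((q * ((2 * a : ℕ) : ℤ) + (r : ℤ) : ℤ) : ℂ) ^ 2 * (τ / (2 * (a : ℂ))) =
      (-2 * π * I * ((c : ℂ) * (r : ℂ) / (2 * (a : ℂ))) +
        2 * π * I * (((2 * (a : ℤ) * q + (r : ℤ) : ℤ) : ℂ) ^ 2 / (4 * (a : ℂ))) * τ) +
        ((-(q * c) : ℤ) : ℂ) * (2 * π * I) := by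
    push_cast
    field_simp
    ring
  rw [h1, Complex.exp_add, Complex.exp_int_mul_two_pi_mul_I, mul_one]

include ha in
/-- `jacobiTheta₂ (c/(2a)) (τ/(2a)) = ∑_{d mod 2a} e(-cd/(2a)) tdTheta a d τ` -/
theorem td_jacobiTheta₂_eq_sum (c : ℤ) {τ : ℂ} (hτ : 0 < τ.im) :
    jacobiTheta₂ ((c : ℂ) / (2 * (a : ℂ))) (τ / (2 * (a : ℂ))) =
      ∑ d ∈ Finset.range (2 * a),
        cexp (-2 * π * I * ((c : ℂ) * (d : ℂ) / (2 * (a : ℂ)))) * tdTheta a (d : ℤ) τ := by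
  have haC : (a : ℂ) ≠ 0 := by exact_mod_cast ha.ne'
  have : NeZero (2 * a) := ⟨by omega⟩
  have him : 0 < (τ / (2 * (a : ℂ))).im := by
    have : τ / (2 * (a : ℂ)) = ((1 / (2 * a : ℝ) : ℝ) : ℂ) * τ := by
      push_cast; field_simp
    rw [this, Complex.im_ofReal_mul]
    have : (0 : ℝ) < a := by exact_mod_cast ha
    positivity
  rw [← jacobiTheta₂_neg_left, ← neg_div]
  have hs := (summable_jacobiTheta₂_term_iff (-(c : ℂ) / (2 * (a : ℂ))) (τ / (2 * (a : ℂ)))).mpr him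
  rw [jacobiTheta₂, ← (Int.divModEquiv (2 * a)).symm.tsum_eq]
  have hs' : Summable (fun p : ℤ × Fin (2 * a) =>
      jacobiTheta₂_term ((Int.divModEquiv (2 * a)).symm p) (-(c : ℂ) / (2 * (a : ℂ)))
        (τ / (2 * (a : ℂ)))) := ((Int.divModEquiv (2 * a)).symm.summable_iff).mpr hs
  rw [hs'.tsum_prod]
  simp only [tsum_fintype]
  have hterm : ∀ (q : ℤ) (r : Fin (2 * a)),
      jacobiTheta₂_term ((Int.divModEquiv (2 * a)).symm (q, r)) (-(c : ℂ) / (2 * (a : ℂ)))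
        (τ / (2 * (a : ℂ))) =
      cexp (-2 * π * I * ((c : ℂ) * ((r : ℕ) : ℂ) / (2 * (a : ℂ)))) * tdTerm a ((r : ℕ) : ℤ) τ q := by
    intro q r
    rw [Int.divModEquiv_symm_apply]
    exact td_jacobiTheta₂_term_split ha c τ q r
  simp only [hterm]
  rw [Summable.tsum_finsetSum]
  · rw [Finset.sum_range]
    refine Finset.sum_congr rfl fun r _ => ?_
    rw [tsum_mul_left]
    rfl
  · intro r _
    exact (summable_tdTerm ha _ hτ).mul_left _

include ha in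
/-- **Inversion formula** for the one-variable theta series with characteristic -/
theorem tdTheta_inv (c : ℤ) {τ : ℂ} (hτ : 0 < τ.im) :
    tdTheta a c (-1 / τ) = tdSqrt τ / (Real.sqrt (2 * a) : ℂ) *
      ∑ d ∈ Finset.range (2 * a),
        cexp (-2 * π * I * ((c : ℂ) * (d : ℂ) / (2 * (a : ℂ)))) * tdTheta a (d : ℤ) τ := by
  rw [tdTheta_inv_eq_jacobiTheta₂ ha c hτ, td_jacobiTheta₂_eq_sum ha c hτ]

end Fermat.Agent.Eis
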