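/-
P11 / S16, package B-an (diagonal theta toolkit), part 5: the four-variable diagonal theta series
with characteristics, `tdTheta4 a c τ = ∏_i tdTheta (a i) (c i) τ
  = ∑_{n ∈ ℤ⁴} e(τ ∑_i (2 a_i n_i + c_i)² / (4 a_i))`:
periodicity, `τ ↦ τ + 1`, the inversion formula, holomorphy, boundedness, the lattice sum.
-/
import Mathlib
import Fermat.Agent.Lib.Eis.Theta.DiagOneS
import Fermat.Agent.Lib.Eis.Theta.DiagOneAn
import Fermat.Agent.Lib.Eis.Theta.PiSum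

set_option autoImplicit false

open Complex Real
open UpperHalfPlane hiding I
open scoped Manifold

namespace Fermat.Agent.Eis

/-- the diagonal theta series in four variables with characteristics `c_i / (2 a_i)` -/
noncomputable def tdTheta4 (a : Fin 4 → ℕ) (c : Fin 4 → ℤ) (τ : ℂ) : ℂ :=
  ∏ i, tdTheta (a i) (c i) τ

variable {a : Fin 4 → ℕ} (ha : ∀ i, 0 < a i) (c : Fin 4 → ℤ)

theorem tdTheta4_congr {c c' : Fin 4 → ℤ} (h : ∀ i, (2 * (a i : ℤ)) ∣ c' i - c i) (τ : ℂ) :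
    tdTheta4 a c' τ = tdTheta4 a c τ := by
  rw [tdTheta4, tdTheta4]
  exact Finset.prod_congr rfl fun i _ => tdTheta_congr (h i) τ

theorem tdTheta4_neg (τ : ℂ) : tdTheta4 a (-c) τ = tdTheta4 a c τ := by
  rw [tdTheta4, tdTheta4]
  exact Finset.prod_congr rfl fun i _ => tdTheta_neg (c i) τ

include ha in
/-- `τ ↦ τ + 1` -/
theorem tdTheta4_add_one (τ : ℂ) :
    tdTheta4 a c (τ + 1) =
      cexp (2 * π * I * ∑ i, ((c i : ℂ) ^ 2 / (4 * (a i : ℂ)))) * tdTheta4 a c τ := by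
  rw [tdTheta4, tdTheta4, Finset.mul_sum, Complex.exp_sum, ← Finset.prod_mul_distrib]
  exact Finset.prod_congr rfl fun i _ => tdTheta_add_one (ha i) (c i) τ

theorem tdSqrt_pow_four (τ : ℂ) : tdSqrt τ ^ 4 = -(τ ^ 2) := by
  have : tdSqrt τ ^ 4 = (tdSqrt τ ^ 2) ^ 2 := by ring
  rw [this, tdSqrt_sq, mul_pow, neg_sq, Complex.I_sq]
  ring

include ha in
/-- **Inversion formula** for the four-variable diagonal theta series -/
theorem tdTheta4_inv {τ : ℂ} (hτ : 0 < τ.im) (s : ℝ) (hs : 0 < s)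
    (hs2 : s ^ 2 = 16 * ∏ i, (a i : ℝ)) :
    tdTheta4 a c (-1 / τ) = -(τ ^ 2) / (s : ℂ) *
      ∑ d ∈ Fintype.piFinset (fun i => Finset.range (2 * a i)),
        cexp (-2 * π * I * ∑ i, ((c i : ℂ) * (d i : ℂ) / (2 * (a i : ℂ)))) *
          tdTheta4 a (fun i => (d i : ℤ)) τ := by
  have hsqrt : (∏ i, (Real.sqrt (2 * (a i : ℝ)))) = s := by
    have h1 : (∏ i, (Real.sqrt (2 * (a i : ℝ)))) ^ 2 = s ^ 2 := by
      rw [← Finset.prod_pow, hs2]
      have : ∀ i ∈ (Finset.univ : Finset (Fin 4)), Real.sqrt (2 * (a i : ℝ)) ^ 2 = 2 * (a i : ℝ) :=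
        fun i _ => Real.sq_sqrt (by positivity)
      rw [Finset.prod_congr rfl this, Finset.prod_mul_distrib]
      simp
      norm_num
    have h2 : 0 ≤ ∏ i, (Real.sqrt (2 * (a i : ℝ))) :=
      Finset.prod_nonneg fun i _ => Real.sqrt_nonneg _
    nlinarith [sq_nonneg (∏ i, (Real.sqrt (2 * (a i : ℝ))) - s),
      sq_nonneg (∏ i, (Real.sqrt (2 * (a i : ℝ))) + s)]
  have h1 : tdTheta4 a c (-1 / τ) = ∏ i, (tdSqrt τ / (Real.sqrt (2 * (a i : ℝ)) : ℂ) *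
      ∑ d ∈ Finset.range (2 * a i),
        cexp (-2 * π * I * ((c i : ℂ) * (d : ℂ) / (2 * (a i : ℂ)))) * tdTheta (a i) (d : ℤ) τ) := by
    rw [tdTheta4]
    exact Finset.prod_congr rfl fun i _ => tdTheta_inv (ha i) (c i) hτ
  rw [h1, Finset.prod_mul_distrib, Finset.prod_div_distrib, Finset.prod_const, Finset.card_univ,
    Fintype.card_fin, tdSqrt_pow_four, ← Complex.ofReal_prod, hsqrt, Finset.prod_univ_sum]
  congr 1
  refine Finset.sum_congr rfl fun d _ => ?_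
  rw [Finset.prod_mul_distrib, tdTheta4, Finset.mul_sum, Complex.exp_sum]

include ha in
theorem tdTheta4_mdifferentiable :
    MDifferentiable 𝓘(ℂ) 𝓘(ℂ) (fun z : ℍ => tdTheta4 a c (z : ℂ)) := by
  have h : (fun z : ℍ => tdTheta4 a c (z : ℂ)) = fun z : ℍ =>
      tdTheta (a 0) (c 0) (z : ℂ) * tdTheta (a 1) (c 1) (z : ℂ) * tdTheta (a 2) (c 2) (z : ℂ) *
        tdTheta (a 3) (c 3) (z : ℂ) := by
    funext z
    rw [tdTheta4, Fin.prod_univ_four]
  rw [h]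
  exact (((tdTheta_mdifferentiable (ha 0) (c 0)).mul (tdTheta_mdifferentiable (ha 1) (c 1))).mul
    (tdTheta_mdifferentiable (ha 2) (c 2))).mul (tdTheta_mdifferentiable (ha 3) (c 3))

include ha in
theorem tdTheta4_isBoundedAtImInfty :
    IsBoundedAtImInfty (fun z : ℍ => tdTheta4 a c (z : ℂ)) := by
  have h : (fun z : ℍ => tdTheta4 a c (z : ℂ)) =
      (fun z : ℍ => tdTheta (a 0) (c 0) (z : ℂ)) * (fun z : ℍ => tdTheta (a 1) (c 1) (z : ℂ)) *
        (fun z : ℍ => tdTheta (a 2) (c 2) (z : ℂ)) * (fun z : ℍ => tdTheta (a 3) (c 3) (z : ℂ)) := by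
    funext z
    simp only [Pi.mul_apply]
    rw [tdTheta4, Fin.prod_univ_four]
  rw [h]
  exact (((tdTheta_isBoundedAtImInfty (ha 0) (c 0)).mul
    (tdTheta_isBoundedAtImInfty (ha 1) (c 1))).mul
    (tdTheta_isBoundedAtImInfty (ha 2) (c 2))).mul (tdTheta_isBoundedAtImInfty (ha 3) (c 3))

/-- the term of the lattice sum: `e(τ ∑_i (2 a_i n_i + c_i)² / (4 a_i))` -/
noncomputable def tdTerm4 (a : Fin 4 → ℕ) (c : Fin 4 → ℤ) (τ : ℂ) (n : Fin 4 → ℤ) : ℂ :=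
  cexp (2 * π * I * (∑ i, tdExp (a i) (c i) (n i)) * τ)

theorem tdTerm4_eq_prod (τ : ℂ) (n : Fin 4 → ℤ) :
    tdTerm4 a c τ n = ∏ i, tdTerm (a i) (c i) τ (n i) := by
  simp only [tdTerm4, tdTerm]
  rw [← Complex.exp_sum]
  congr 1
  rw [Finset.mul_sum, Finset.sum_mul]

include ha in
/-- **the lattice sum**: `tdTheta4 a c τ = ∑_{n ∈ ℤ⁴} e(τ ∑_i (2 a_i n_i + c_i)² / (4 a_i))`,
absolutely convergent -/
theorem hasSum_tdTerm4 {τ : ℂ} (hτ : 0 < τ.im) :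
    (Summable fun n : Fin 4 → ℤ => ‖tdTerm4 a c τ n‖) ∧
      HasSum (tdTerm4 a c τ) (tdTheta4 a c τ) := by
  have h := td_hasSum_pi_prod 4 (fun i m => tdTerm (a i) (c i) τ m)
    (fun i => (summable_tdTerm (ha i) (c i) hτ).norm)
  have e : (fun x : Fin 4 → ℤ => ∏ i, tdTerm (a i) (c i) τ (x i)) = tdTerm4 a c τ := by
    funext n
    rw [tdTerm4_eq_prod]
  refine ⟨?_, ?_⟩
  · refine h.1.congr fun n => ?_
    rw [tdTerm4_eq_prod]
  · have h2 := h.2
    rw [e] at h2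
    exact h2

end Fermat.Agent.Eis
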