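/-
P11 / S16, package B-an (diagonal theta toolkit), part 6: the four-variable diagonal theta series
as functions on `ℍ`, and their weight-2 slash transforms under `S` and `T`.
-/
import Mathlib
import Fermat.Agent.Lib.Eis.Theta.DiagFour

set_option autoImplicit false

open Complex Real ModularGroup ModularForm
open UpperHalfPlane hiding I
open scoped Manifold MatrixGroups ModularForm

namespace Fermat.Agent.Eis

/-- the four-variable diagonal theta series as a function on the upper half plane -/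
noncomputable def tdTheta4H (a : Fin 4 → ℕ) (c : Fin 4 → ℤ) : ℍ → ℂ := fun z => tdTheta4 a c (z : ℂ)

variable {a : Fin 4 → ℕ} (ha : ∀ i, 0 < a i) (c : Fin 4 → ℤ)

theorem tdTheta4H_congr {c c' : Fin 4 → ℤ} (h : ∀ i, (2 * (a i : ℤ)) ∣ c' i - c i) :
    tdTheta4H a c' = tdTheta4H a c := by
  funext z
  exact tdTheta4_congr h z

theorem tdTheta4H_neg : tdTheta4H a (-c) = tdTheta4H a c := by
  funext z
  exact tdTheta4_neg c z

include ha in
theorem tdTheta4H_mdifferentiable : MDifferentiable 𝓘(ℂ) 𝓘(ℂ) (tdTheta4H a c) :=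
  tdTheta4_mdifferentiable ha c

include ha in
theorem tdTheta4H_isBoundedAtImInfty : IsBoundedAtImInfty (tdTheta4H a c) :=
  tdTheta4_isBoundedAtImInfty ha c

include ha in
/-- the slash transform under `T` -/
theorem tdTheta4H_slash_T :
    tdTheta4H a c ∣[(2 : ℤ)] T =
      cexp (2 * π * I * ∑ i, ((c i : ℂ) ^ 2 / (4 * (a i : ℂ)))) • tdTheta4H a c := by
  funext z
  rw [SL_slash_apply, modular_T_smul]
  have hd : denom (T : SL(2, ℤ)) z = 1 := by
    simp [denom, ModularGroup.T]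
  rw [hd, one_zpow, mul_one]
  simp only [tdTheta4H, Pi.smul_apply, smul_eq_mul]
  have : (((1 : ℝ) +ᵥ z : ℍ) : ℂ) = (z : ℂ) + 1 := by
    rw [UpperHalfPlane.coe_vadd]; push_cast; ring
  rw [this, tdTheta4_add_one ha]

include ha in
/-- the slash transform under `S` -/
theorem tdTheta4H_slash_S (s : ℝ) (hs : 0 < s) (hs2 : s ^ 2 = 16 * ∏ i, (a i : ℝ)) :
    tdTheta4H a c ∣[(2 : ℤ)] S = (-(1 / (s : ℂ))) •
      ∑ d ∈ Fintype.piFinset (fun i => Finset.range (2 * a i)),
        cexp (-2 * π * I * ∑ i, ((c i : ℂ) * (d i : ℂ) / (2 * (a i : ℂ)))) •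
          tdTheta4H a (fun i => (d i : ℤ)) := by
  funext z
  have hz : (z : ℂ) ≠ 0 := ne_zero z
  have hsC : (s : ℂ) ≠ 0 := by exact_mod_cast hs.ne'
  rw [SL_slash_apply, denom_S, modular_S_smul]
  simp only [tdTheta4H, Pi.smul_apply, smul_eq_mul, Finset.sum_apply]
  have : (-(z : ℂ))⁻¹ = -1 / (z : ℂ) := by
    field_simp
  rw [this, tdTheta4_inv ha c z.im_pos s hs hs2]
  have h2 : ((z : ℂ)) ^ (-(2 : ℤ)) = ((z : ℂ) ^ 2)⁻¹ := by
    rw [zpow_neg]; norm_cast
  rw [h2]
  field_simp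

end Fermat.Agent.Eis
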