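/-
P11 / S16, package B-an (diagonal theta toolkit), part 4: a finite product of absolutely
convergent series is the sum over the product index set.
-/
import Mathlib

set_option autoImplicit false

namespace Fermat.Agent.Eis

/-- `∏_{i < n} ∑_m f i m = ∑_{x : Fin n → ι} ∏_i f i (x i)` for absolutely summable families -/
theorem td_hasSum_pi_prod {ι : Type*} : ∀ (n : ℕ) (f : Fin n → ι → ℂ),
    (∀ i, Summable fun m => ‖f i m‖) →
    (Summable fun x : Fin n → ι => ‖∏ i, f i (x i)‖) ∧
      HasSum (fun x : Fin n → ι => ∏ i, f i (x i)) (∏ i, ∑' m, f i m) := by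
  intro n
  induction n with
  | zero =>
    intro f _
    have : Unique (Fin 0 → ι) := Pi.uniqueOfIsEmpty _
    refine ⟨(hasSum_unique _).summable, ?_⟩
    simp
  | succ n ih =>
    intro f hf
    obtain ⟨ihs, ihh⟩ := ih (fun i => f i.succ) (fun i => hf i.succ)
    have h0 := hf 0
    -- the product over `ι × (Fin n → ι)`
    have hsn : Summable fun z : ι × (Fin n → ι) => ‖f 0 z.1 * ∏ i : Fin n, f i.succ (z.2 i)‖ :=
      Summable.mul_norm (f := f 0) (g := fun x : Fin n → ι => ∏ i : Fin n, f i.succ (x i)) h0 ihs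
    have hprod : (∑' m, f 0 m) * (∑' x : Fin n → ι, ∏ i : Fin n, f i.succ (x i)) =
        ∑' z : ι × (Fin n → ι), f 0 z.1 * ∏ i : Fin n, f i.succ (z.2 i) :=
      tsum_mul_tsum_of_summable_norm (f := f 0)
        (g := fun x : Fin n → ι => ∏ i : Fin n, f i.succ (x i)) h0 ihs
    have hsum : Summable fun z : ι × (Fin n → ι) => f 0 z.1 * ∏ i : Fin n, f i.succ (z.2 i) :=
      hsn.of_norm
    let e : ι × (Fin n → ι) ≃ (Fin (n + 1) → ι) := Fin.consEquiv (fun _ => ι)
    have he : ∀ z : ι × (Fin n → ι),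
        ∏ i : Fin (n + 1), f i (e z i) = f 0 z.1 * ∏ i : Fin n, f i.succ (z.2 i) := by
      intro z
      rw [Fin.prod_univ_succ]
      simp [e, Fin.consEquiv]
    constructor
    · rw [← e.summable_iff]
      refine hsn.congr fun z => ?_
      simp only [Function.comp_apply]
      rw [he]
    · rw [← e.hasSum_iff]
      have : ((fun x : Fin (n + 1) → ι => ∏ i, f i (x i)) ∘ e) =
          fun z : ι × (Fin n → ι) => f 0 z.1 * ∏ i : Fin n, f i.succ (z.2 i) := by
        funext z
        exact he z
      rw [this, Fin.prod_univ_succ, ← ihh.tsum_eq, hprod]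
      exact hsum.hasSum

end Fermat.Agent.Eis
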